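/-
S23-F: the fixed field of the automorphism group of the complex numbers is the rationals.
-/
import Mathlib

set_option autoImplicit false

namespace Fermat.Agent.S23

open Cardinal Polynomial

/-- Two algebraically closed fields of the same uncountable cardinality over a countable
domain `R` are isomorphic compatibly with the structure maps. -/
theorem autComplex_exists_ringEquiv_algebraMap {R K L : Type} [CommRing R] [IsDomain R] [Field K] [Field L]
    [Algebra R K] [Algebra R L] [FaithfulSMul R K] [FaithfulSMul R L]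
    [IsAlgClosed K] [IsAlgClosed L]
    (hR : #R ≤ ℵ₀) (hK : ℵ₀ < #K) (hKL : #K = #L) :
    ∃ σ : K ≃+* L, ∀ r, σ (algebraMap R K r) = algebraMap R L r := by
  obtain ⟨s, hs⟩ := exists_isTranscendenceBasis R K
  obtain ⟨t, ht⟩ := exists_isTranscendenceBasis R L
  have h1 : #K = #s :=
    IsAlgClosed.cardinal_eq_cardinal_transcendence_basis_of_aleph0_lt' _ hs hR hK
  have h2 : #L = #t :=
    IsAlgClosed.cardinal_eq_cardinal_transcendence_basis_of_aleph0_lt' _ ht hR (hKL ▸ hK)
  have h3 : #s = #t := by rw [← h1, ← h2, hKL]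
  obtain ⟨e⟩ := Cardinal.eq.1 h3
  let := IsAlgClosed.isAlgClosure_of_transcendence_basis _ hs
  let := IsAlgClosed.isAlgClosure_of_transcendence_basis _ ht
  let e' : Algebra.adjoin R (Set.range ((↑) : s → K)) ≃ₐ[R]
      Algebra.adjoin R (Set.range ((↑) : t → L)) :=
    hs.1.aevalEquiv.symm.trans ((MvPolynomial.renameEquiv R e).trans ht.1.aevalEquiv)
  refine ⟨IsAlgClosure.equivOfEquiv K L e'.toRingEquiv, fun r => ?_⟩
  rw [IsScalarTower.algebraMap_apply R (Algebra.adjoin R (Set.range ((↑) : s → K))) K,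
    IsAlgClosure.equivOfEquiv_algebraMap]
  rw [IsScalarTower.algebraMap_apply R (Algebra.adjoin R (Set.range ((↑) : t → L))) L]
  congr 1
  exact e'.commutes r

/-- Two embeddings of a countable domain in `ℂ` differ by an automorphism of `ℂ`. -/
theorem autComplex_exists_ringEquiv_comp {R : Type} [CommRing R] [IsDomain R] (hR : #R ≤ ℵ₀)
    (φ ψ : R →+* ℂ) (hφ : Function.Injective φ) (hψ : Function.Injective ψ) :
    ∃ σ : ℂ ≃+* ℂ, ∀ r, σ (φ r) = ψ r := by
  let a1 : Algebra R ℂ := φ.toAlgebra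
  have f1 : @FaithfulSMul R ℂ a1.toSMul := (faithfulSMul_iff_algebraMap_injective R ℂ).mpr hφ
  let a2 : Algebra R ℂ := ψ.toAlgebra
  have f2 : @FaithfulSMul R ℂ a2.toSMul := (faithfulSMul_iff_algebraMap_injective R ℂ).mpr hψ
  have hC : ℵ₀ < #ℂ := by
    rw [Cardinal.mk_complex]; exact Cardinal.aleph0_lt_continuum
  exact @autComplex_exists_ringEquiv_algebraMap R ℂ ℂ _ _ _ _ a1 a2 f1 f2 _ _ hR hC rfl

theorem autComplex_mk_polynomial_rat_le : #ℚ[X] ≤ ℵ₀ :=
  Polynomial.cardinalMk_le_max.trans (by simp)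

/-- **L8**: the fixed field of `Aut(ℂ)` is `ℚ`. -/
theorem exists_ringEquiv_ne (x : ℂ) (hx : ∀ r : ℚ, (r : ℂ) ≠ x) : ∃ σ : ℂ ≃+* ℂ, σ x ≠ x := by
  by_cases halg : IsAlgebraic ℚ x
  · -- algebraic case
    have hint : IsIntegral ℚ x := halg.isIntegral
    have hirr : Irreducible (minpoly ℚ x) := minpoly.irreducible hint
    have : Fact (Irreducible (minpoly ℚ x)) := ⟨hirr⟩
    have hdeg : 2 ≤ (minpoly ℚ x).natDegree := by
      rw [minpoly.two_le_natDegree_iff hint]
      rintro ⟨r, hr⟩
      exact hx r (by simpa using hr)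
    have hcard : Fintype.card ((minpoly ℚ x).rootSet ℂ) = (minpoly ℚ x).natDegree :=
      Polynomial.card_rootSet_eq_natDegree hirr.separable (IsAlgClosed.splits _)
    have hxroot : x ∈ (minpoly ℚ x).rootSet ℂ := by
      rw [Polynomial.mem_rootSet]
      exact ⟨minpoly.ne_zero hint, minpoly.aeval ℚ x⟩
    obtain ⟨⟨y, hy⟩, hne⟩ := Fintype.exists_ne_of_one_lt_card
      (show 1 < Fintype.card ((minpoly ℚ x).rootSet ℂ) by omega) ⟨x, hxroot⟩
    have hy' : (minpoly ℚ x).eval₂ (algebraMap ℚ ℂ) y = 0 := by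
      rw [Polynomial.mem_rootSet] at hy
      simpa [Polynomial.aeval_def] using hy.2
    have hx' : (minpoly ℚ x).eval₂ (algebraMap ℚ ℂ) x = 0 := by
      simpa [Polynomial.aeval_def] using minpoly.aeval ℚ x
    obtain ⟨σ, hσ⟩ := autComplex_exists_ringEquiv_comp (R := AdjoinRoot (minpoly ℚ x))
      ((Cardinal.mk_le_of_surjective AdjoinRoot.mk_surjective).trans autComplex_mk_polynomial_rat_le) (AdjoinRoot.lift (algebraMap ℚ ℂ) x hx')
      (AdjoinRoot.lift (algebraMap ℚ ℂ) y hy') (RingHom.injective _) (RingHom.injective _)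
    refine ⟨σ, ?_⟩
    have := hσ (AdjoinRoot.root _)
    rw [AdjoinRoot.lift_root, AdjoinRoot.lift_root] at this
    rw [this]
    intro h
    exact hne (Subtype.ext h)
  · -- transcendental case
    have htr : Transcendental ℚ x := halg
    have htr' : Transcendental ℚ (x + 1) := by
      intro h
      apply halg
      have : x = (x + 1) - 1 := by ring
      rw [this]
      exact h.sub isAlgebraic_one
    obtain ⟨σ, hσ⟩ := autComplex_exists_ringEquiv_comp (R := ℚ[X])
      autComplex_mk_polynomial_rat_le (Polynomial.aeval x).toRingHom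
      (Polynomial.aeval (x + 1)).toRingHom
      (transcendental_iff_injective.1 htr) (transcendental_iff_injective.1 htr')
    refine ⟨σ, ?_⟩
    have := hσ Polynomial.X
    simp only [AlgHom.toRingHom_eq_coe, RingHom.coe_coe, aeval_X] at this
    rw [this]
    simp

end Fermat.Agent.S23
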