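/-
S23 helper library: basic definitions shared by all files of the integral-structure proof.
-/
import Mathlib

set_option autoImplicit false

open UpperHalfPlane ModularForm
open scoped MatrixGroups Manifold

namespace Fermat.Agent.S23

/-- The subring of `ℂ⟦q⟧` of power series all of whose coefficients are (images of) integers. -/
noncomputable def intSeries : Subring (PowerSeries ℂ) :=
  (PowerSeries.map (Int.castRingHom ℂ)).range

theorem mem_intSeries_iff {p : PowerSeries ℂ} :
    p ∈ intSeries ↔ ∀ n : ℕ, ∃ m : ℤ, PowerSeries.coeff n p = (m : ℂ) := by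
  constructor
  · rintro ⟨P, rfl⟩ n
    exact ⟨PowerSeries.coeff n P, by simp⟩
  · intro h
    choose m hm using h
    refine ⟨PowerSeries.mk m, ?_⟩
    ext n
    simp [hm]

/-- Restrict the level of a modular form. -/
def restrictLevel {Γ Γ' : Subgroup (GL (Fin 2) ℝ)} (h : Γ' ≤ Γ) {k : ℤ} (f : ModularForm Γ k) :
    ModularForm Γ' k where
  toFun := f
  slash_action_eq' γ hγ := f.slash_action_eq' γ (h hγ)
  holo' := f.holo'
  bdd_at_cusps' hc := f.bdd_at_cusps' (hc.mono h)

@[simp] theorem coe_restrictLevel {Γ Γ' : Subgroup (GL (Fin 2) ℝ)} (h : Γ' ≤ Γ) {k : ℤ}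
    (f : ModularForm Γ k) : ⇑(restrictLevel h f) = ⇑f := rfl

end Fermat.Agent.S23
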