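/-
S23-H: bounded denominators (pure power series algebra).
-/
import Fermat.Agent.S23.Defs

set_option autoImplicit false

open UpperHalfPlane ModularForm
open scoped MatrixGroups Manifold

namespace Fermat.Agent.S23

open PowerSeries

/-- The subring of `ℚ⟦X⟧` of power series with integral coefficients. -/
noncomputable def bdIntQ : Subring (PowerSeries ℚ) := (PowerSeries.map (Int.castRingHom ℚ)).range

theorem bd_mem_intQ_iff {f : PowerSeries ℚ} :
    f ∈ bdIntQ ↔ ∀ n, ∃ k : ℤ, coeff n f = k := by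
  constructor
  · rintro ⟨z, rfl⟩ n
    exact ⟨coeff n z, by simp⟩
  · intro h
    choose k hk using h
    refine ⟨PowerSeries.mk k, ?_⟩
    ext n
    simp [hk]

/-- If `c * u ^ m` is an integer for all `m` (with `c ≠ 0` an integer) then `u` is an integer. -/
theorem bd_rat_isInt_of_forall_pow (c : ℤ) (hc : c ≠ 0) (u : ℚ)
    (h : ∀ m : ℕ, ∃ k : ℤ, (c : ℚ) * u ^ m = k) : ∃ k : ℤ, u = k := by
  by_cases hden : u.den = 1
  · exact ⟨u.num, ((Rat.den_eq_one_iff u).1 hden).symm⟩
  exfalso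
  have hden2 : 2 ≤ u.den := by
    have := u.den_pos
    omega
  obtain ⟨k, hk⟩ := h c.natAbs
  set m := c.natAbs with hm
  have hdvd : ((u.den : ℤ) ^ m) ∣ c := by
    have hcop : IsCoprime ((u.den : ℤ) ^ m) (u.num ^ m) := by
      apply IsCoprime.pow
      rw [Int.isCoprime_iff_gcd_eq_one]
      have := u.reduced
      rw [Int.gcd_comm]
      simpa [Int.gcd, Nat.Coprime] using this
    apply hcop.dvd_of_dvd_mul_right
    refine ⟨k, ?_⟩
    have hd0 : (u.den : ℚ) ≠ 0 := by exact_mod_cast u.den_ne_zero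
    have hu : u = u.num / u.den := (Rat.num_div_den u).symm
    rw [hu, div_pow] at hk
    field_simp at hk
    have : ((c * u.num ^ m : ℤ) : ℚ) = ((u.den : ℤ) ^ m * k : ℤ) := by
      push_cast
      linarith
    exact_mod_cast this
  have hle := Int.natAbs_le_of_dvd_ne_zero hdvd hc
  rw [Int.natAbs_pow, Int.natAbs_natCast] at hle
  have h2 : m < 2 ^ m := Nat.lt_two_pow_self
  have h3 : 2 ^ m ≤ u.den ^ m := Nat.pow_le_pow_left hden2 m
  omega

theorem bd_coeff_X_pow_mul_self {R : Type*} [Semiring R] (p : PowerSeries R) (n : ℕ) :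
    coeff n (X ^ n * p) = constantCoeff p := by
  have := PowerSeries.coeff_X_pow_mul p n 0
  simpa using this

/-- Complete integral closedness of `ℤ⟦X⟧` in `ℚ⟦X⟧`. -/
theorem bd_mem_intQ_of_forall_pow (C : PowerSeries ℚ) (hC : C ∈ bdIntQ) (hC0 : C ≠ 0)
    (y : PowerSeries ℚ) (h : ∀ m : ℕ, C * y ^ m ∈ bdIntQ) : y ∈ bdIntQ := by
  rw [bd_mem_intQ_iff]
  intro n
  induction n using Nat.strong_induction_on with
  | _ n ih =>
  -- truncation
  let y₀ : PowerSeries ℚ := PowerSeries.mk fun i => if i < n then coeff i y else 0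
  have hy₀ : y₀ ∈ bdIntQ := by
    rw [bd_mem_intQ_iff]
    intro i
    by_cases hi : i < n
    · obtain ⟨k, hk⟩ := ih i hi
      exact ⟨k, by simp [y₀, hi, hk]⟩
    · exact ⟨0, by simp [y₀, hi]⟩
  have hpow : ∀ m : ℕ, C * (y - y₀) ^ m ∈ bdIntQ := by
    intro m
    rw [sub_eq_add_neg, add_pow, Finset.mul_sum]
    refine Subring.sum_mem _ fun i _ => ?_
    have : C * (y ^ i * (-y₀) ^ (m - i) * (m.choose i : PowerSeries ℚ)) =
        (C * y ^ i) * (-y₀) ^ (m - i) * (m.choose i : PowerSeries ℚ) := by ring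
    rw [this]
    exact Subring.mul_mem _ (Subring.mul_mem _ (h i)
      (Subring.pow_mem _ (Subring.neg_mem _ hy₀) _)) (natCast_mem _ _)
  obtain ⟨y₂, hy₂⟩ : X ^ n ∣ y - y₀ := by
    rw [PowerSeries.X_pow_dvd_iff]
    intro i hi
    simp [y₀, hi]
  have hu : constantCoeff y₂ = coeff n y := by
    have := congrArg (coeff n) hy₂
    rw [bd_coeff_X_pow_mul_self] at this
    simpa [y₀] using this.symm
  -- leading coefficient of `C`
  obtain ⟨s, hs, hsmin⟩ : ∃ s, coeff s C ≠ 0 ∧ ∀ i < s, coeff i C = 0 := by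
    have hex : ∃ s, coeff s C ≠ 0 := by
      by_contra hcon
      push Not at hcon
      exact hC0 (PowerSeries.ext (by simpa using hcon))
    classical
    exact ⟨Nat.find hex, Nat.find_spec hex, fun i hi => by simpa using Nat.find_min hex hi⟩
  obtain ⟨C', hC'⟩ : X ^ s ∣ C := by
    rw [PowerSeries.X_pow_dvd_iff]
    exact hsmin
  have hc' : constantCoeff C' = coeff s C := by
    have := congrArg (coeff s) hC'
    rw [bd_coeff_X_pow_mul_self] at this
    exact this.symm
  obtain ⟨c, hc⟩ := (bd_mem_intQ_iff.1 hC) s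
  have hc0 : c ≠ 0 := by
    rintro rfl
    exact hs (by simpa using hc)
  apply bd_rat_isInt_of_forall_pow c hc0
  intro m
  obtain ⟨k, hk⟩ := (bd_mem_intQ_iff.1 (hpow m)) (s + n * m)
  refine ⟨k, ?_⟩
  rw [← hk, hy₂, hC']
  have : X ^ s * C' * (X ^ n * y₂) ^ m = X ^ (s + n * m) * (C' * y₂ ^ m) := by
    rw [mul_pow, ← pow_mul, pow_add]; ring
  rw [this, bd_coeff_X_pow_mul_self]
  simp [hc', hu, hc]

/-- In a commutative ring, a monic relation for `y` over a subring `I` together with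
`c * y ^ e ∈ I` for `e < d` gives `c * y ^ m ∈ I` for all `m`. -/
theorem bd_mul_pow_mem {S : Type*} [CommRing S] (I : Subring S) (y c : S) (d : ℕ) (a : ℕ → S)
    (ha0 : a 0 = 1) (ha : ∀ i, a i ∈ I)
    (hrel : ∑ i ∈ Finset.range (d + 1), a i * y ^ (d - i) = 0)
    (hc : ∀ e < d, c * y ^ e ∈ I) : ∀ m, c * y ^ m ∈ I := by
  have hyd : y ^ d = -∑ i ∈ Finset.range d, a (i + 1) * y ^ (d - (i + 1)) := by
    rw [Finset.sum_range_succ', ha0] at hrel
    simp only [Nat.sub_zero, one_mul] at hrel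
    linear_combination hrel
  intro m
  induction m using Nat.strong_induction_on with
  | _ m ih =>
  by_cases hm : m < d
  · exact hc m hm
  · have hmd : m = d + (m - d) := by omega
    have : c * y ^ m = -∑ i ∈ Finset.range d, a (i + 1) * (c * y ^ (m - (i + 1))) := by
      rw [hmd, pow_add, hyd, ← hmd]
      rw [neg_mul, mul_neg, Finset.sum_mul, Finset.mul_sum]
      congr 1
      refine Finset.sum_congr rfl fun i hi => ?_
      have hi' : i < d := Finset.mem_range.1 hi
      have : m - (i + 1) = (d - (i + 1)) + (m - d) := by omega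
      rw [this, pow_add]
      ring
    rw [this]
    refine Subring.neg_mem _ (Subring.sum_mem _ fun i hi => ?_)
    have hi' : i < d := Finset.mem_range.1 hi
    exact Subring.mul_mem _ (ha _) (ih _ (by omega))

/-- Power series over `ℚ` with bounded denominators. -/
def BdDen (z : PowerSeries ℚ) : Prop := ∃ M : ℤ, M ≠ 0 ∧ (M : PowerSeries ℚ) * z ∈ bdIntQ

theorem BdDen.add {z w : PowerSeries ℚ} (hz : BdDen z) (hw : BdDen w) : BdDen (z + w) := by
  obtain ⟨M, hM, hMz⟩ := hz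
  obtain ⟨M', hM', hMw⟩ := hw
  refine ⟨M * M', mul_ne_zero hM hM', ?_⟩
  have : ((M * M' : ℤ) : PowerSeries ℚ) * (z + w) =
      (M' : PowerSeries ℚ) * ((M : PowerSeries ℚ) * z) +
        (M : PowerSeries ℚ) * ((M' : PowerSeries ℚ) * w) := by
    push_cast; ring
  rw [this]
  exact Subring.add_mem _ (Subring.mul_mem _ (intCast_mem _ _) hMz)
    (Subring.mul_mem _ (intCast_mem _ _) hMw)

theorem BdDen.zero : BdDen 0 := ⟨1, one_ne_zero, by simp⟩

/-- Common denominators for a finite family. -/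
theorem BdDen.exists_common (s : Finset ℕ) (z : ℕ → PowerSeries ℚ) (hz : ∀ i ∈ s, BdDen (z i)) :
    ∃ M : ℤ, M ≠ 0 ∧ ∀ i ∈ s, (M : PowerSeries ℚ) * z i ∈ bdIntQ := by
  classical
  induction s using Finset.induction_on with
  | empty => exact ⟨1, one_ne_zero, by simp⟩
  | insert a s ha ih =>
    obtain ⟨M, hM, hMs⟩ := ih fun i hi => hz i (Finset.mem_insert_of_mem hi)
    obtain ⟨M', hM', hMa⟩ := hz a (Finset.mem_insert_self a s)
    refine ⟨M * M', mul_ne_zero hM hM', fun i hi => ?_⟩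
    rcases Finset.mem_insert.1 hi with rfl | hi
    · have : ((M * M' : ℤ) : PowerSeries ℚ) * z i =
          (M : PowerSeries ℚ) * ((M' : PowerSeries ℚ) * z i) := by push_cast; ring
      rw [this]
      exact Subring.mul_mem _ (intCast_mem _ _) hMa
    · have : ((M * M' : ℤ) : PowerSeries ℚ) * z i =
          (M' : PowerSeries ℚ) * ((M : PowerSeries ℚ) * z i) := by push_cast; ring
      rw [this]
      exact Subring.mul_mem _ (intCast_mem _ _) (hMs i hi)

theorem bd_exists_proj : ∃ π : ℂ →ₗ[ℚ] ℚ, ∀ r : ℚ, π (r : ℂ) = r := by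
  obtain ⟨g, hg⟩ := LinearMap.exists_leftInverse_of_injective (Algebra.linearMap ℚ ℂ) (by
    rw [LinearMap.ker_eq_bot]; exact (algebraMap ℚ ℂ).injective)
  exact ⟨g, fun r => by simpa using LinearMap.congr_fun hg r⟩

/-- The coefficientwise map `z ↦ π (μ z)`. -/
noncomputable def bdP (π : ℂ →ₗ[ℚ] ℚ) (μ : ℂ) : PowerSeries ℂ →+ PowerSeries ℚ :=
  AddMonoidHom.mk' (fun z => PowerSeries.mk fun n => π (μ * coeff n z)) (by
    intro z w
    ext n
    simp [mul_add])

@[simp] theorem coeff_bdP (π : ℂ →ₗ[ℚ] ℚ) (μ : ℂ) (z : PowerSeries ℂ) (n : ℕ) :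
    coeff n (bdP π μ z) = π (μ * coeff n z) := by
  simp [bdP]

theorem bdP_map_mul (π : ℂ →ₗ[ℚ] ℚ) (μ : ℂ) (y : PowerSeries ℚ) (z : PowerSeries ℂ) :
    bdP π μ (PowerSeries.map (algebraMap ℚ ℂ) y * z) = y * bdP π μ z := by
  ext n
  rw [coeff_bdP, PowerSeries.coeff_mul, PowerSeries.coeff_mul, Finset.mul_sum, map_sum]
  refine Finset.sum_congr rfl fun p _ => ?_
  rw [coeff_bdP, PowerSeries.coeff_map]
  have : μ * ((algebraMap ℚ ℂ) (coeff p.1 y) * coeff p.2 z) =
      (coeff p.1 y) • (μ * coeff p.2 z) := by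
    rw [Algebra.smul_def]; ring
  rw [this, map_smul, smul_eq_mul]

theorem bdP_mem_span (π : ℂ →ₗ[ℚ] ℚ) {z : PowerSeries ℂ}
    (hz : z ∈ Submodule.span ℂ (intSeries : Set (PowerSeries ℂ))) :
    ∀ μ : ℂ, BdDen (bdP π μ z) := by
  induction hz using Submodule.span_induction with
  | mem z hz =>
    intro μ
    rw [SetLike.mem_coe, mem_intSeries_iff] at hz
    choose k hk using hz
    refine ⟨(π μ).den, by exact_mod_cast (π μ).den_ne_zero, ?_⟩
    rw [bd_mem_intQ_iff]
    intro n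
    refine ⟨(π μ).num * k n, ?_⟩
    have h1 : (((π μ).den : ℤ) : PowerSeries ℚ) = PowerSeries.C (((π μ).den : ℚ)) := by
      simp
    rw [h1, PowerSeries.coeff_C_mul, coeff_bdP, hk]
    have h2 : μ * (k n : ℂ) = (k n : ℚ) • μ := by
      rw [Algebra.smul_def]; simp [mul_comm]
    rw [h2, map_smul, smul_eq_mul]
    have h3 : ((π μ).den : ℚ) * π μ = (π μ).num := Rat.den_mul_eq_num (π μ)
    push_cast
    linear_combination (k n : ℚ) * h3
  | zero => intro μ; simpa using BdDen.zero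
  | add z w _ _ hz hw => intro μ; rw [map_add]; exact (hz μ).add (hw μ)
  | smul a z _ hz =>
    intro μ
    have : bdP π μ (a • z) = bdP π (μ * a) z := by
      ext n
      simp [mul_assoc]
    rw [this]
    exact hz _

theorem bounded_denominators (x : PowerSeries ℂ) (hx : ∀ n, ∃ r : ℚ, PowerSeries.coeff n x = (r : ℂ))
    (d : ℕ) (C : ℕ → PowerSeries ℂ) (hC0 : C 0 = 1)
    (hC : ∀ i, C i ∈ Submodule.span ℂ (intSeries : Set (PowerSeries ℂ)))
    (hrel : ∑ i ∈ Finset.range (d + 1), C i * x ^ (d - i) = 0)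
    (Dq : PowerSeries ℂ) (hDq : Dq ≠ 0)
    (hD : ∀ e : ℕ, Dq * x ^ e ∈ Submodule.span ℂ (intSeries : Set (PowerSeries ℂ))) :
    ∃ M : ℤ, M ≠ 0 ∧ (M : ℂ) • x ∈ intSeries := by
  obtain ⟨π, hπ⟩ := bd_exists_proj
  have hπ1 : π 1 = 1 := by simpa using hπ 1
  choose r hr using hx
  set x₀ : PowerSeries ℚ := PowerSeries.mk r with hx₀def
  have hx₀ : x = PowerSeries.map (algebraMap ℚ ℂ) x₀ := by
    ext n
    simp [x₀, hr]
  have hxpow : ∀ e : ℕ, x ^ e = PowerSeries.map (algebraMap ℚ ℂ) (x₀ ^ e) := by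
    intro e; rw [map_pow, ← hx₀]
  -- the rational monic relation
  set c : ℕ → PowerSeries ℚ := fun i => bdP π 1 (C i) with hcdef
  have hc0 : c 0 = 1 := by
    ext n
    simp only [hcdef, hC0, coeff_bdP, one_mul, PowerSeries.coeff_one]
    split_ifs
    · exact hπ1
    · exact map_zero π
  have hcBd : ∀ i, BdDen (c i) := fun i => bdP_mem_span π (hC i) 1
  have hrelQ : ∑ i ∈ Finset.range (d + 1), c i * x₀ ^ (d - i) = 0 := by
    have := congrArg (bdP π 1) hrel
    rw [map_sum, map_zero] at this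
    rw [← this]
    refine Finset.sum_congr rfl fun i _ => ?_
    rw [hxpow, mul_comm (C i), bdP_map_mul, mul_comm]
  -- the rational denominator
  obtain ⟨n₀, hn₀⟩ : ∃ n₀, coeff n₀ Dq ≠ 0 := by
    by_contra hcon
    push Not at hcon
    exact hDq (PowerSeries.ext (by simpa using hcon))
  set μ : ℂ := (coeff n₀ Dq)⁻¹ with hμ
  set c₀ : PowerSeries ℚ := bdP π μ Dq with hc₀def
  have hc₀ne : c₀ ≠ 0 := by
    intro h
    have := congrArg (coeff n₀) h
    rw [hc₀def, coeff_bdP, hμ, inv_mul_cancel₀ hn₀, hπ1] at this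
    simp at this
  have hc₀Bd : ∀ e : ℕ, BdDen (c₀ * x₀ ^ e) := by
    intro e
    have := bdP_mem_span π (hD e) μ
    rwa [hxpow, mul_comm Dq, bdP_map_mul, mul_comm] at this
  -- clear denominators
  obtain ⟨M₁, hM₁, hM₁c⟩ := BdDen.exists_common (Finset.range (d + 1)) c fun i _ => hcBd i
  set y : PowerSeries ℚ := (M₁ : PowerSeries ℚ) * x₀ with hy
  set a : ℕ → PowerSeries ℚ := fun i => if i ≤ d then (M₁ : PowerSeries ℚ) ^ i * c i else 0 with ha
  have ha0 : a 0 = 1 := by simp [ha, hc0]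
  have haI : ∀ i, a i ∈ bdIntQ := by
    intro i
    by_cases hi : i ≤ d
    · rcases Nat.eq_zero_or_pos i with rfl | hpos
      · rw [ha0]; exact Subring.one_mem _
      · have : a i = (M₁ : PowerSeries ℚ) ^ (i - 1) * ((M₁ : PowerSeries ℚ) * c i) := by
          simp only [ha, hi, if_true]
          rw [← mul_assoc, ← pow_succ]
          congr 2
          omega
        rw [this]
        exact Subring.mul_mem _ (Subring.pow_mem _ (intCast_mem _ _) _)
          (hM₁c i (Finset.mem_range.2 (by omega)))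
    · simp only [ha, hi, if_false]
      exact Subring.zero_mem _
  have hrely : ∑ i ∈ Finset.range (d + 1), a i * y ^ (d - i) = 0 := by
    have : ∑ i ∈ Finset.range (d + 1), a i * y ^ (d - i) =
        (M₁ : PowerSeries ℚ) ^ d * ∑ i ∈ Finset.range (d + 1), c i * x₀ ^ (d - i) := by
      rw [Finset.mul_sum]
      refine Finset.sum_congr rfl fun i hi => ?_
      have hi' : i ≤ d := by have := Finset.mem_range.1 hi; omega
      simp only [ha, hi', if_true, hy, mul_pow]
      have : (M₁ : PowerSeries ℚ) ^ d = (M₁ : PowerSeries ℚ) ^ i * (M₁ : PowerSeries ℚ) ^ (d - i) := by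
        rw [← pow_add]; congr 1; omega
      rw [this]; ring
    rw [this, hrelQ, mul_zero]
  obtain ⟨M₂, hM₂, hM₂c⟩ := BdDen.exists_common (Finset.range (d + 1)) (fun e => c₀ * x₀ ^ e)
    fun e _ => hc₀Bd e
  set cc : PowerSeries ℚ := (M₂ : PowerSeries ℚ) * c₀ with hcc
  have hM₂ne : (M₂ : PowerSeries ℚ) ≠ 0 := by
    intro h
    have h2 := congrArg constantCoeff h
    simp only [map_intCast, map_zero, Int.cast_eq_zero] at h2
    exact hM₂ h2
  have hccne : cc ≠ 0 := mul_ne_zero hM₂ne hc₀ne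
  have hccI : cc ∈ bdIntQ := by
    have := hM₂c 0 (Finset.mem_range.2 (by omega))
    simpa [hcc] using this
  have hcce : ∀ e < d, cc * y ^ e ∈ bdIntQ := by
    intro e he
    have : cc * y ^ e = (M₁ : PowerSeries ℚ) ^ e * ((M₂ : PowerSeries ℚ) * (c₀ * x₀ ^ e)) := by
      rw [hcc, hy, mul_pow]; ring
    rw [this]
    exact Subring.mul_mem _ (Subring.pow_mem _ (intCast_mem _ _) _)
      (hM₂c e (Finset.mem_range.2 (by omega)))
  have hall := bd_mul_pow_mem bdIntQ y cc d a ha0 haI hrely hcce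
  have hyI : y ∈ bdIntQ := bd_mem_intQ_of_forall_pow cc hccI hccne y hall
  refine ⟨M₁, hM₁, ?_⟩
  rw [mem_intSeries_iff]
  intro n
  obtain ⟨k, hk⟩ := (bd_mem_intQ_iff.1 hyI) n
  refine ⟨k, ?_⟩
  have h1 : ((M₁ : ℤ) : PowerSeries ℚ) = PowerSeries.C ((M₁ : ℚ)) := by simp
  rw [hy, h1, PowerSeries.coeff_C_mul, hx₀def, PowerSeries.coeff_mk] at hk
  rw [map_smul, hr, smul_eq_mul]
  exact_mod_cast congrArg (fun q : ℚ => (q : ℂ)) hk

end Fermat.Agent.S23
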