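/-
S23-D: common denominator via the trace Hankel matrix and Cramer's rule.
-/
import Fermat.Agent.S23.Defs

set_option autoImplicit false

open UpperHalfPlane ModularForm
open scoped MatrixGroups Manifold

namespace Fermat.Agent.S23

/-- `F` is the underlying function of a modular form of level `Γ` and weight `k`. -/
def DenIsMF (Γ : Subgroup (GL (Fin 2) ℝ)) (k : ℤ) (F : ℍ → ℂ) : Prop :=
  ∃ g : ModularForm Γ k, ⇑g = F

namespace DenIsMF

variable {Γ : Subgroup (GL (Fin 2) ℝ)} {k : ℤ} {F G : ℍ → ℂ}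

lemma zero : DenIsMF Γ k 0 := ⟨0, rfl⟩

lemma add (hF : DenIsMF Γ k F) (hG : DenIsMF Γ k G) : DenIsMF Γ k (F + G) := by
  obtain ⟨f, rfl⟩ := hF
  obtain ⟨g, rfl⟩ := hG
  exact ⟨f + g, rfl⟩

lemma neg (hF : DenIsMF Γ k F) : DenIsMF Γ k (-F) := by
  obtain ⟨f, rfl⟩ := hF
  exact ⟨-f, rfl⟩

lemma cast {k' : ℤ} (h : k = k') (hF : DenIsMF Γ k F) : DenIsMF Γ k' F := h ▸ hF

lemma sum {ι : Type*} (s : Finset ι) (Φ : ι → ℍ → ℂ) (h : ∀ i ∈ s, DenIsMF Γ k (Φ i)) :
    DenIsMF Γ k (∑ i ∈ s, Φ i) := by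
  classical
  induction s using Finset.induction_on with
  | empty => simpa using zero
  | insert i t hi IH =>
    rw [Finset.sum_insert hi]
    exact (h i (Finset.mem_insert_self i t)).add
      (IH fun j hj => h j (Finset.mem_insert_of_mem hj))

lemma prod [Γ.HasDetPlusMinusOne] {ι : Type} (s : Finset ι) (κ : ι → ℤ) (Φ : ι → ℍ → ℂ)
    (h : ∀ i, DenIsMF Γ (κ i) (Φ i)) : DenIsMF Γ (∑ i ∈ s, κ i) (∏ i ∈ s, Φ i) := by
  choose φ hφ using h
  refine ⟨ModularForm.prod (s := s) (∑ i ∈ s, κ i) rfl φ, ?_⟩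
  rw [ModularForm.coe_prod]
  exact Finset.prod_congr rfl fun i _ => hφ i

lemma units_smul (u : ℤˣ) (hF : DenIsMF Γ k F) : DenIsMF Γ k (u • F) := by
  rcases Int.units_eq_one_or u with rfl | rfl
  · simpa using hF
  · simpa using hF.neg

lemma det [Γ.HasDetPlusMinusOne] {n : Type} [Fintype n] [DecidableEq n]
    (M : Matrix n n (ℍ → ℂ)) (a b : n → ℤ) (hM : ∀ i j, DenIsMF Γ (a i + b j) (M i j)) :
    DenIsMF Γ (∑ i, a i + ∑ j, b j) M.det := by
  rw [Matrix.det_apply]
  refine sum _ _ fun σ _ => units_smul _ ?_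
  have h1 := prod (Γ := Γ) Finset.univ (fun i => a (σ i) + b i) (fun i => M (σ i) i)
    (fun i => hM (σ i) i)
  refine h1.cast ?_
  rw [Finset.sum_add_distrib, Equiv.sum_comp σ a]

end DenIsMF

lemma den_cramer_identity {R : Type*} [CommRing R] {n : Type*} [Fintype n] [DecidableEq n]
    (V : Matrix n n R) (F : n → R) :
    V.mulVec (Matrix.cramer (V.transpose * V) (V.transpose.mulVec F)) =
      (V.transpose * V).det • F := by
  have h : V * (V.adjugate * V.transpose.adjugate) * V.transpose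
      = (V.transpose * V).det • (1 : Matrix n n R) := by
    rw [← Matrix.mul_assoc, Matrix.mul_adjugate, Matrix.mul_assoc, Matrix.adjugate_mul,
      Matrix.smul_mul, Matrix.one_mul, smul_smul, Matrix.det_mul, mul_comm]
  rw [Matrix.cramer_eq_adjugate_mulVec, Matrix.adjugate_mul_distrib, Matrix.mulVec_mulVec,
    Matrix.mulVec_mulVec, h, Matrix.smul_mulVec, Matrix.one_mulVec]

section quot

variable {𝒢 : Subgroup (GL (Fin 2) ℝ)}

local notation "𝒬" => 𝒮ℒ ⧸ (𝒢.subgroupOf 𝒮ℒ)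

lemma den_abs_det_inv (h : 𝒮ℒ) : |((h.val⁻¹ : GL (Fin 2) ℝ).det : ℝ)| = 1 := by
  have := Subgroup.HasDetPlusMinusOne.abs_det (Γ := 𝒮ℒ) (inv_mem h.2)
  simpa using this

lemma den_quotientFunc_mul [𝒢.HasDetPlusMinusOne] {k₁ k₂ : ℤ} (f : ModularForm 𝒢 k₁)
    (g : ModularForm 𝒢 k₂) (q : 𝒬) :
    SlashInvariantForm.quotientFunc (f.mul g) q =
      SlashInvariantForm.quotientFunc f q * SlashInvariantForm.quotientFunc g q := by
  induction q using Quotient.inductionOn with
  | h r =>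
    rw [SlashInvariantForm.quotientFunc_mk, SlashInvariantForm.quotientFunc_mk,
      SlashInvariantForm.quotientFunc_mk, ModularForm.coe_mul, ModularForm.mul_slash,
      den_abs_det_inv, one_smul]

lemma den_quotientFunc_pow [𝒢.HasDetPlusMinusOne] {w : ℤ} (t : ModularForm 𝒢 w) (n : ℕ) (q : 𝒬) :
    SlashInvariantForm.quotientFunc (t.pow n) q = (SlashInvariantForm.quotientFunc t q) ^ n := by
  induction q using Quotient.inductionOn with
  | h r =>
    rw [SlashInvariantForm.quotientFunc_mk, SlashInvariantForm.quotientFunc_mk,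
      ModularForm.coe_pow]
    have := ModularForm.prod_slash (k := w) (g := (r.val⁻¹ : GL (Fin 2) ℝ)) (f := fun _ : ℕ => ⇑t)
      (s := Finset.range n)
    rw [den_abs_det_inv, one_zpow, one_smul, Finset.prod_const, Finset.prod_const,
      Finset.card_range, mul_comm] at this
    exact this

lemma den_quotientFunc_mdiff {w : ℤ} (t : ModularForm 𝒢 w) (q : 𝒬) :
    MDiff (SlashInvariantForm.quotientFunc t q) := by
  induction q using Quotient.inductionOn with
  | h r => exact (translate t r.val⁻¹).holo'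

lemma den_quotientFunc_injective {w : ℤ} (t : ModularForm 𝒢 w)
    (ht : ∀ h : SL(2, ℤ), (⇑t ∣[w] h = ⇑t) → (Matrix.SpecialLinearGroup.mapGL ℝ h) ∈ 𝒢) :
    Function.Injective (SlashInvariantForm.quotientFunc (ℋ := 𝒮ℒ) t) := by
  intro q q' hqq
  induction q using Quotient.inductionOn with
  | h r =>
  induction q' using Quotient.inductionOn with
  | h r' =>
    rw [SlashInvariantForm.quotientFunc_mk, SlashInvariantForm.quotientFunc_mk] at hqq
    have h1 : ⇑t ∣[w] (r.val⁻¹ * r'.val) = ⇑t := by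
      rw [SlashAction.slash_mul, hqq, ← SlashAction.slash_mul, inv_mul_cancel,
        SlashAction.slash_one]
    obtain ⟨h, hh⟩ : (r.val⁻¹ * r'.val) ∈ 𝒮ℒ := mul_mem (inv_mem r.2) r'.2
    have h2 : Matrix.SpecialLinearGroup.mapGL ℝ h ∈ 𝒢 := by
      apply ht
      rw [ModularForm.SL_slash]
      rw [← hh] at h1
      exact h1
    refine Quotient.sound ?_
    refine (QuotientGroup.leftRel_apply).mpr ?_
    rw [Subgroup.mem_subgroupOf]
    rw [hh] at h2
    simpa using h2

lemma den_quotientFunc_one {w : ℤ} (t : ModularForm 𝒢 w) :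
    SlashInvariantForm.quotientFunc (ℋ := 𝒮ℒ) t ⟦1⟧ = ⇑t := by
  rw [SlashInvariantForm.quotientFunc_mk]
  simp

/-- sums over the cosets of products `f_q * t_q ^ n` are level one forms. -/
lemma den_isMF_sum_mul_pow [𝒢.IsArithmetic] [Fintype 𝒬] {k w : ℤ} (f : ModularForm 𝒢 k)
    (t : ModularForm 𝒢 w) (n : ℕ) :
    DenIsMF 𝒮ℒ (k + n * w) (∑ q : 𝒬, SlashInvariantForm.quotientFunc f q *
      SlashInvariantForm.quotientFunc t q ^ n) := by
  refine ⟨ModularForm.trace 𝒮ℒ (f.mul (t.pow n)), ?_⟩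
  rw [ModularForm.coe_trace]
  refine Finset.sum_congr (by ext; simp) fun q _ => ?_
  rw [den_quotientFunc_mul, den_quotientFunc_pow]

lemma den_isMF_sum_pow [𝒢.IsArithmetic] [Fintype 𝒬] {w : ℤ}
    (t : ModularForm 𝒢 w) (n : ℕ) :
    DenIsMF 𝒮ℒ (n * w) (∑ q : 𝒬, SlashInvariantForm.quotientFunc t q ^ n) := by
  refine ⟨ModularForm.trace 𝒮ℒ (t.pow n), ?_⟩
  rw [ModularForm.coe_trace]
  refine Finset.sum_congr (by ext; simp) fun q _ => ?_
  rw [den_quotientFunc_pow]

end quot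

theorem exists_denominator {𝒢 : Subgroup (GL (Fin 2) ℝ)} [𝒢.IsArithmetic] (h𝒢 : 𝒢 ≤ 𝒮ℒ) {w : ℤ}
    (t : ModularForm 𝒢 w)
    (ht : ∀ h : SL(2, ℤ), (⇑t ∣[w] h = ⇑t) → (Matrix.SpecialLinearGroup.mapGL ℝ h) ∈ 𝒢) :
    ∃ (d : ℕ) (m : ℤ) (D : ModularForm 𝒮ℒ m), D ≠ 0 ∧
      ∀ {k : ℤ} (f : ModularForm 𝒢 k), ∃ g : (j : ℕ) → ModularForm 𝒮ℒ (k + m - j * w),
        ∀ τ : ℍ, D τ * f τ = ∑ j ∈ Finset.range d, g j τ * t τ ^ j := by
  classical
  let _ : Fintype (𝒮ℒ ⧸ (𝒢.subgroupOf 𝒮ℒ)) := Fintype.ofFinite _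
  set d : ℕ := Fintype.card (𝒮ℒ ⧸ (𝒢.subgroupOf 𝒮ℒ)) with hd
  let e : (𝒮ℒ ⧸ (𝒢.subgroupOf 𝒮ℒ)) ≃ Fin d := Fintype.equivFin _
  let T : Fin d → ℍ → ℂ := fun a => SlashInvariantForm.quotientFunc t (e.symm a)
  let V : Matrix (Fin d) (Fin d) (ℍ → ℂ) := Matrix.vandermonde T
  let H : Matrix (Fin d) (Fin d) (ℍ → ℂ) := V.transpose * V
  let a : Fin d → ℤ := fun i => (i : ℕ) * w
  -- entries of `H`
  have hH : ∀ i j, DenIsMF 𝒮ℒ (a i + a j) (H i j) := by
    intro i j
    have h1 := den_isMF_sum_pow t ((i : ℕ) + (j : ℕ))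
    refine DenIsMF.cast (by simp only [a]; push_cast; ring) (F := H i j) ?_ (k := (((i : ℕ) + (j : ℕ) : ℕ) : ℤ) * w)
    convert h1 using 1
    simp only [H, V, Matrix.mul_apply, Matrix.transpose_apply, Matrix.vandermonde_apply, T]
    rw [← Equiv.sum_comp e.symm]
    exact Finset.sum_congr rfl fun x _ => (pow_add _ _ _).symm
  obtain ⟨D, hD⟩ := DenIsMF.det H a a hH
  refine ⟨d, _, D, ?_, ?_⟩
  · -- `D ≠ 0`
    intro hD0
    have h0 : H.det = 0 := by rw [← hD, hD0]; rfl
    have h1 : V.det = 0 := by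
      funext τ
      have h2 := congrFun h0 τ
      simp only [H, Matrix.det_mul, Matrix.det_transpose, Pi.mul_apply, Pi.zero_apply,
        mul_self_eq_zero] at h2
      simpa using h2
    have hTd : ∀ i, MDiff (T i) := fun i => den_quotientFunc_mdiff t _
    rw [Matrix.det_vandermonde, UpperHalfPlane.prod_eq_zero_iff
      (fun i _ => MDifferentiable.prod fun j _ => (hTd j).sub (hTd i))] at h1
    obtain ⟨i, -, h1⟩ := h1
    rw [UpperHalfPlane.prod_eq_zero_iff (fun j _ => (hTd j).sub (hTd i))] at h1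
    obtain ⟨j, hj, h1⟩ := h1
    have h2 : T j = T i := sub_eq_zero.mp h1
    have h3 : j = i := e.symm.injective (den_quotientFunc_injective t ht h2)
    rw [h3] at hj
    simp at hj
  · intro k f
    let F : Fin d → ℍ → ℂ := fun a => SlashInvariantForm.quotientFunc f (e.symm a)
    let s : Fin d → ℍ → ℂ := V.transpose.mulVec F
    have hs : ∀ i, DenIsMF 𝒮ℒ (k + a i) (s i) := by
      intro i
      have h1 := den_isMF_sum_mul_pow f t (i : ℕ)
      convert h1 using 1
      simp only [s, V, F, Matrix.mulVec, dotProduct, Matrix.transpose_apply,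
        Matrix.vandermonde_apply, T]
      rw [← Equiv.sum_comp e.symm]
      exact Finset.sum_congr rfl fun x _ => mul_comm _ _
    have hg : ∀ j : Fin d, DenIsMF 𝒮ℒ (k + (∑ i, a i + ∑ j, a j) - (j : ℕ) * w)
        (Matrix.cramer H s j) := by
      intro j
      rw [Matrix.cramer_apply]
      have h1 := DenIsMF.det (Γ := 𝒮ℒ) (H.updateCol j s) a (Function.update a j k) (by
        intro i j'
        by_cases hj : j' = j
        · subst hj
          rw [Matrix.updateCol_self, Function.update_self, add_comm]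
          exact hs i
        · rw [Matrix.updateCol_ne hj, Function.update_of_ne hj]
          exact hH i j')
      refine h1.cast ?_
      rw [Finset.sum_update_of_mem (Finset.mem_univ j)]
      have h2 : ∑ x ∈ Finset.univ \ {j}, a x = ∑ x, a x - a j := by
        rw [Finset.sum_sdiff_eq_sub (Finset.subset_univ _), Finset.sum_singleton]
      rw [h2]
      simp only [a]
      ring
    choose G hG using hg
    refine ⟨fun j => if hj : j < d then G ⟨j, hj⟩ else 0, fun τ => ?_⟩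
    have key := congrFun (congrFun (den_cramer_identity V F) (e ⟦1⟧)) τ
    rw [Finset.sum_range]
    simp only [Fin.is_lt, dite_true, Fin.eta]
    have hF1 : F (e ⟦1⟧) = ⇑f := by
      simp only [F, Equiv.symm_apply_apply]
      exact den_quotientFunc_one f
    have hT1 : T (e ⟦1⟧) = ⇑t := by
      simp only [T, Equiv.symm_apply_apply]
      exact den_quotientFunc_one t
    rw [Pi.smul_apply, hF1, smul_eq_mul, Pi.mul_apply] at key
    rw [hD, ← key]
    simp only [Matrix.mulVec, dotProduct, V, Matrix.vandermonde_apply, hT1, Finset.sum_apply,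
      Pi.mul_apply, Pi.pow_apply]
    refine Finset.sum_congr rfl fun j _ => ?_
    rw [hG j, mul_comm]

end Fermat.Agent.S23
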