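/-
S23-G: descent.  A finite-dimensional space of complex power series that is stable under
all ring automorphisms of `ℂ` (acting on coefficients) is spanned by vectors with rational
coefficients.
-/
import Mathlib

set_option autoImplicit false

namespace Fermat.Agent.S23

theorem span_rational_of_stable
    (hfix : ∀ x : ℂ, (∀ σ : ℂ ≃+* ℂ, σ x = x) → ∃ r : ℚ, x = (r : ℂ))
    {V : Type*} [AddCommGroup V] [Module ℂ V] [FiniteDimensional ℂ V]
    (q : V →ₗ[ℂ] PowerSeries ℂ) (hq : Function.Injective q)
    (hσ : ∀ (σ : ℂ ≃+* ℂ) (v : V), ∃ v' : V, q v' = (q v).map (σ : ℂ →+* ℂ)) :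
    Submodule.span ℂ {v : V | ∀ n, ∃ r : ℚ, PowerSeries.coeff n (q v) = (r : ℂ)} = ⊤ := by
  classical
  -- the coefficient functionals
  let φ : ℕ → Module.Dual ℂ V := fun n => (PowerSeries.coeff (R := ℂ) n) ∘ₗ q
  have hφ : ∀ n v, φ n v = PowerSeries.coeff n (q v) := fun n v => rfl
  -- they span the dual
  have hspan : Submodule.span ℂ (Set.range φ) = ⊤ := by
    have h0 : (Submodule.span ℂ (Set.range φ)).dualCoannihilator = ⊥ := by
      rw [eq_bot_iff]
      intro v hv
      rw [Submodule.mem_dualCoannihilator] at hv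
      rw [Submodule.mem_bot]
      apply hq
      rw [map_zero]
      ext n
      have := hv (φ n) (Submodule.subset_span ⟨n, rfl⟩)
      simpa [hφ] using this
    have h1 := Subspace.dualCoannihilator_dualAnnihilator_eq
      (W := Submodule.span ℂ (Set.range φ))
    rw [h0, Submodule.dualAnnihilator_bot] at h1
    exact h1.symm
  obtain ⟨κ, a, -, hsp, hli⟩ := exists_linearIndependent' ℂ φ
  let B : Module.Basis κ ℂ (Module.Dual ℂ V) := Module.Basis.mk hli (by rw [hsp, hspan])
  have hB : ∀ i, B i = φ (a i) := fun i => by simp [B]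
  have : Finite κ := Module.Finite.finite_basis B
  let _ : Fintype κ := Fintype.ofFinite κ
  let B' : Module.Basis κ ℂ V := B.dualBasis.map (Module.evalEquiv ℂ V).symm
  have hB' : ∀ i j, φ (a i) (B' j) = if j = i then 1 else 0 := by
    intro i j
    have h1 : Module.evalEquiv ℂ V (B' j) = B.dualBasis j := by simp [B']
    have h2 : Module.evalEquiv ℂ V (B' j) (B i) = B i (B' j) := by
      simp
    rw [← hB, ← h2, h1, Module.Basis.dualBasis_apply_self]
    simp only [eq_comm]
  -- separation
  have hsep : ∀ v v' : V, (∀ i, φ (a i) v = φ (a i) v') → v = v' := by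
    intro v v' h
    apply (Module.evalEquiv ℂ V).injective
    apply B.ext
    intro i
    simp only [Module.evalEquiv_apply, Module.Dual.eval_apply, hB]
    exact h i
  rw [eq_top_iff, ← B'.span_eq]
  apply Submodule.span_mono
  rintro _ ⟨j, rfl⟩ n
  obtain ⟨r, hr⟩ := hfix (PowerSeries.coeff n (q (B' j))) (by
    intro σ
    obtain ⟨v', hv'⟩ := hσ σ (B' j)
    have : v' = B' j := by
      apply hsep
      intro i
      rw [hφ, hv', PowerSeries.coeff_map, ← hφ, hB']
      split_ifs <;> simp
    rw [this] at hv'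
    have h3 := congrArg (PowerSeries.coeff n) hv'
    rw [PowerSeries.coeff_map] at h3
    exact h3.symm)
  exact ⟨r, hr⟩

end Fermat.Agent.S23
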