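/-
S23-A: level one modular forms are spanned by forms with integral q-expansions.
-/
import Fermat.Agent.S23.Defs

set_option autoImplicit false

open UpperHalfPlane ModularForm
open scoped MatrixGroups Manifold

namespace Fermat.Agent.S23

open EisensteinSeries ModularFormClass

/-- The span of the level one forms with integral `q`-expansion. -/
noncomputable def levelOneIntSpan (k : ℤ) : Submodule ℂ (ModularForm 𝒮ℒ k) :=
  Submodule.span ℂ {g : ModularForm 𝒮ℒ k | qExpansion 1 g ∈ intSeries}

theorem levelOne_E4_int : qExpansion 1 E₄ ∈ intSeries := by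
  rw [mem_intSeries_iff]
  intro n
  rw [E_qExpansion_coeff _ ⟨2, rfl⟩]
  split_ifs with h
  · exact ⟨1, by simp⟩
  · refine ⟨240 * (ArithmeticFunction.sigma 3 n : ℤ), ?_⟩
    norm_num [show bernoulli 4 = -1 / 30 by decide +kernel]

theorem levelOne_E6_int : qExpansion 1 E₆ ∈ intSeries := by
  rw [mem_intSeries_iff]
  intro n
  rw [E_qExpansion_coeff _ ⟨3, rfl⟩]
  split_ifs with h
  · exact ⟨1, by simp⟩
  · refine ⟨-504 * (ArithmeticFunction.sigma 5 n : ℤ), ?_⟩
    norm_num [show bernoulli 6 = 1 / 42 by decide +kernel]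

/-- The monomial `E₄^a E₆^b`. -/
noncomputable def levelOneMonomial (a b : ℕ) (k : ℤ) (h : (a : ℤ) * 4 + (b : ℤ) * 6 = k) :
    ModularForm 𝒮ℒ k :=
  ModularForm.mcast h ((E₄.pow a).mul (E₆.pow b))

theorem levelOneMonomial_qExpansion (a b : ℕ) (k : ℤ) (h : (a : ℤ) * 4 + (b : ℤ) * 6 = k) :
    qExpansion 1 (levelOneMonomial a b k h) = qExpansion 1 E₄ ^ a * qExpansion 1 E₆ ^ b := by
  rw [levelOneMonomial, ModularForm.qExpansion_mcast,
    ModularForm.qExpansion_mul one_pos one_mem_strictPeriods_SL,
    ModularForm.qExpansion_pow one_pos one_mem_strictPeriods_SL,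
    ModularForm.qExpansion_pow one_pos one_mem_strictPeriods_SL]

theorem levelOneMonomial_int (a b : ℕ) (k : ℤ) (h : (a : ℤ) * 4 + (b : ℤ) * 6 = k) :
    qExpansion 1 (levelOneMonomial a b k h) ∈ intSeries := by
  rw [levelOneMonomial_qExpansion]
  exact mul_mem (pow_mem levelOne_E4_int a) (pow_mem levelOne_E6_int b)

theorem levelOneMonomial_coeff_zero (a b : ℕ) (k : ℤ) (h : (a : ℤ) * 4 + (b : ℤ) * 6 = k) :
    (qExpansion 1 (levelOneMonomial a b k h)).coeff 0 = 1 := by
  rw [levelOneMonomial_qExpansion]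
  have h4 : PowerSeries.constantCoeff (qExpansion 1 E₄) = 1 := by
    simpa using E_qExpansion_coeff_zero (k := 4) (by norm_num) ⟨2, rfl⟩
  have h6 : PowerSeries.constantCoeff (qExpansion 1 E₆) = 1 := by
    simpa using E_qExpansion_coeff_zero (k := 6) (by norm_num) ⟨3, rfl⟩
  simp [h4, h6]

/-- Multiplication by the discriminant as a linear map. -/
noncomputable def levelOneMulDelta (k : ℤ) : ModularForm 𝒮ℒ (k - 12) →ₗ[ℂ] ModularForm 𝒮ℒ k :=
  CuspForm.toModularFormₗ ∘ₗ (CuspForm.discriminantEquiv (k := k)).symm.toLinearMap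

theorem levelOneMulDelta_apply (k : ℤ) (g : ModularForm 𝒮ℒ (k - 12)) (z : ℍ) :
    levelOneMulDelta k g z = ModularForm.discriminant z * g z := rfl

/-- `(E₄³ - E₆²) g` as a modular form of weight `k`. -/
noncomputable def levelOneMulE (k : ℤ) (g : ModularForm 𝒮ℒ (k - 12)) : ModularForm 𝒮ℒ k :=
  ModularForm.mcast (by ring)
    ((ModularForm.mcast (show ((3 : ℕ) : ℤ) * 4 = 12 by norm_num) (E₄.pow 3) -
      ModularForm.mcast (show ((2 : ℕ) : ℤ) * 6 = 12 by norm_num) (E₆.pow 2)).mul g)

theorem levelOneMulE_int (k : ℤ) (g : ModularForm 𝒮ℒ (k - 12))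
    (hg : qExpansion 1 g ∈ intSeries) : qExpansion 1 (levelOneMulE k g) ∈ intSeries := by
  rw [levelOneMulE, ModularForm.qExpansion_mcast,
    ModularForm.qExpansion_mul one_pos one_mem_strictPeriods_SL, FunLike.coe_sub,
    ModularForm.qExpansion_sub one_pos one_mem_strictPeriods_SL,
    ModularForm.qExpansion_mcast, ModularForm.qExpansion_mcast,
    ModularForm.qExpansion_pow one_pos one_mem_strictPeriods_SL,
    ModularForm.qExpansion_pow one_pos one_mem_strictPeriods_SL]
  exact mul_mem (sub_mem (pow_mem levelOne_E4_int 3) (pow_mem levelOne_E6_int 2)) hg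

theorem levelOneMulDelta_eq (k : ℤ) (g : ModularForm 𝒮ℒ (k - 12)) :
    levelOneMulDelta k g = (1 / 1728 : ℂ) • levelOneMulE k g := by
  ext z
  rw [levelOneMulDelta_apply, ModularForm.discriminant_eq_E₄_cube_sub_E₆_sq]
  change _ = (1 / 1728 : ℂ) * ((E₄.pow 3 z - E₆.pow 2 z) * g z)
  rw [ModularForm.coe_pow, ModularForm.coe_pow, Pi.pow_apply, Pi.pow_apply]
  ring

theorem levelOneMulDelta_mem (k : ℤ) (g : ModularForm 𝒮ℒ (k - 12))
    (hg : g ∈ levelOneIntSpan (k - 12)) : levelOneMulDelta k g ∈ levelOneIntSpan k := by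
  have : levelOneIntSpan (k - 12) ≤ (levelOneIntSpan k).comap (levelOneMulDelta k) := by
    rw [levelOneIntSpan, Submodule.span_le]
    intro h hh
    rw [SetLike.mem_coe, Submodule.mem_comap, levelOneMulDelta_eq]
    exact Submodule.smul_mem _ _ (Submodule.subset_span (levelOneMulE_int k h hh))
  exact this hg

theorem levelOne_exists_monomial (n : ℕ) (hn : 4 ≤ n) (he : Even n) :
    ∃ a b : ℕ, (a : ℤ) * 4 + (b : ℤ) * 6 = (n : ℤ) := by
  obtain ⟨m, rfl⟩ := he
  rcases Nat.even_or_odd' m with ⟨j, rfl | rfl⟩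
  · exact ⟨j, 0, by push_cast; ring⟩
  · exact ⟨j - 1, 1, by
      have : 1 ≤ j := by omega
      push_cast [Nat.cast_sub this]; ring⟩

theorem levelOne_step (k : ℤ) (P : ModularForm 𝒮ℒ k) (hP : qExpansion 1 P ∈ intSeries)
    (hP0 : (qExpansion 1 P).coeff 0 = 1)
    (ih : ∀ g : ModularForm 𝒮ℒ (k - 12), g ∈ levelOneIntSpan (k - 12))
    (f : ModularForm 𝒮ℒ k) : f ∈ levelOneIntSpan k := by
  obtain ⟨c, hc⟩ : ∃ c : ℂ, c = (qExpansion 1 f).coeff 0 := ⟨_, rfl⟩
  obtain ⟨F, hF⟩ : ∃ F : ModularForm 𝒮ℒ k, F = f - c • P := ⟨_, rfl⟩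
  have hcusp : (qExpansion 1 F).coeff 0 = 0 := by
    rw [hF, hc]
    exact (ModularForm.isCuspForm_iff_coeffZero_eq_zero _).mp
      (ModularForm.sub_smul_isCuspForm f P hP0)
  have hfg : f = levelOneMulDelta k (CuspForm.discriminantEquiv
      (ModularForm.toCuspForm F hcusp)) + c • P := by
    have h1 : levelOneMulDelta k (CuspForm.discriminantEquiv
        (ModularForm.toCuspForm F hcusp)) = F := by
      ext z
      rw [levelOneMulDelta_apply, ModularForm.discriminant_mul_discriminantEquiv_apply,
        ModularForm.toCuspForm_apply]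
    rw [h1, hF, sub_add_cancel]
  rw [hfg]
  exact Submodule.add_mem _ (levelOneMulDelta_mem k _ (ih _))
    (Submodule.smul_mem _ _ (Submodule.subset_span hP))

theorem levelOne_mem_intSpan_nat (n : ℕ) (f : ModularForm 𝒮ℒ (n : ℤ)) :
    f ∈ levelOneIntSpan (n : ℤ) := by
  induction n using Nat.strong_induction_on with
  | _ n ih =>
    rcases Nat.even_or_odd n with he | ho
    · rcases lt_or_ge n 4 with h4 | h4
      · -- `n = 0` or `n = 2`
        have h02 : n = 0 ∨ n = 2 := by
          obtain ⟨m, rfl⟩ := he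
          omega
        rcases h02 with rfl | rfl
        · obtain ⟨c, hc⟩ := ModularFormClass.levelOne_weight_zero_const
            (F := ModularForm 𝒮ℒ 0) f
          have h1 : f = c • (1 : ModularForm 𝒮ℒ 0) := by
            ext z
            have := congrFun hc z
            change f z = c * 1
            rw [mul_one]
            exact this
          have h1' : (1 : ModularForm 𝒮ℒ 0) ∈ levelOneIntSpan 0 := by
            refine Submodule.subset_span ?_
            change qExpansion 1 (1 : ModularForm 𝒮ℒ 0) ∈ intSeries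
            rw [ModularForm.qExpansion_one]
            exact one_mem _
          change f ∈ levelOneIntSpan 0
          rw [h1]
          exact Submodule.smul_mem _ _ h1'
        · have : f = 0 := rank_zero_iff_forall_zero.mp ModularForm.levelOne_weight_two_rank_zero f
          rw [this]
          exact Submodule.zero_mem _
      · obtain ⟨a, b, hab⟩ := levelOne_exists_monomial n h4 he
        refine levelOne_step n (levelOneMonomial a b n hab) (levelOneMonomial_int a b n hab)
          (levelOneMonomial_coeff_zero a b n hab) ?_ f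
        intro g₁
        rcases lt_or_ge n 12 with h12 | h12
        · have : g₁ = 0 := rank_zero_iff_forall_zero.mp
            (ModularForm.levelOne_neg_weight_rank_zero (by omega)) g₁
          rw [this]
          exact Submodule.zero_mem _
        · have hcast : ((n - 12 : ℕ) : ℤ) = (n : ℤ) - 12 := by omega
          have key : ∀ (j : ℤ) (_ : ((n - 12 : ℕ) : ℤ) = j) (g : ModularForm 𝒮ℒ j),
              g ∈ levelOneIntSpan j := by
            intro j hj g
            subst hj
            exact ih (n - 12) (by omega) g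
          exact key _ hcast g₁
    · have : f = 0 := ModularForm.levelOne_odd_weight_eq_zero (by exact_mod_cast ho) f
      rw [this]
      exact Submodule.zero_mem _

theorem levelOne_span_int (k : ℤ) :
    Submodule.span ℂ {g : ModularForm 𝒮ℒ k | qExpansion 1 g ∈ intSeries} = ⊤ := by
  rw [eq_top_iff]
  intro f _
  rcases lt_or_ge k 0 with hk | hk
  · have : f = 0 := rank_zero_iff_forall_zero.mp (ModularForm.levelOne_neg_weight_rank_zero hk) f
    rw [this]
    exact Submodule.zero_mem _
  · lift k to ℕ using hk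
    exact levelOne_mem_intSpan_nat k f

end Fermat.Agent.S23
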