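/-
S23-C: the elementary symmetric functions of the `SL(2,ℤ)`-conjugates of a modular form for an
arithmetic group are level-one modular forms; hence the form satisfies a monic relation over
the ring of level-one forms.
-/
import Fermat.Agent.S23.Defs

set_option autoImplicit false

open UpperHalfPlane ModularForm
open scoped MatrixGroups Manifold

namespace Fermat.Agent.S23

section MonicRelation

open SlashInvariantForm

variable {𝒢 : Subgroup (GL (Fin 2) ℝ)} [𝒢.IsArithmetic] {k : ℤ}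

local notation "𝒬" => 𝒮ℒ ⧸ (𝒢.subgroupOf 𝒮ℒ)

/-- The `i`-th elementary symmetric function of the conjugates of `f`. -/
noncomputable def mrEsymmFun (f : ModularForm 𝒢 k) (i : ℕ) : ℍ → ℂ :=
  let := Fintype.ofFinite 𝒬
  ∑ S ∈ (Finset.univ : Finset 𝒬).powersetCard i, ∏ q ∈ S, quotientFunc f q

lemma mrEsymmFun_slash_gen (f : ModularForm 𝒢 k) (i : ℕ) (g : GL (Fin 2) ℝ) :
    mrEsymmFun f i ∣[k * i] g =
      let := Fintype.ofFinite 𝒬
      |g.det.val| ^ ((i : ℤ) - 1) •
        ∑ S ∈ (Finset.univ : Finset 𝒬).powersetCard i, ∏ q ∈ S, (quotientFunc f q ∣[k] g) := by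
  let := Fintype.ofFinite 𝒬
  unfold mrEsymmFun
  rw [SlashAction.sum_slash, Finset.smul_sum]
  refine Finset.sum_congr rfl fun S hS => ?_
  have hcard : S.card = i := (Finset.mem_powersetCard.mp hS).2
  rw [← hcard, ModularForm.prod_slash]

lemma mrEsymmFun_slash (f : ModularForm 𝒢 k) (i : ℕ) {h : GL (Fin 2) ℝ} (hh : h ∈ 𝒮ℒ) :
    mrEsymmFun f i ∣[k * i] h = mrEsymmFun f i := by
  classical
  let := Fintype.ofFinite 𝒬
  rw [mrEsymmFun_slash_gen, Subgroup.HasDetPlusMinusOne.abs_det hh, one_zpow, one_smul]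
  unfold mrEsymmFun
  set e : 𝒬 ≃ 𝒬 := MulAction.toPerm ((⟨h, hh⟩ : 𝒮ℒ)⁻¹) with he
  have key : ∀ S : Finset 𝒬, ∏ q ∈ S, (quotientFunc f q ∣[k] h) =
      ∏ q ∈ S.map e.toEmbedding, quotientFunc f q := by
    intro S
    rw [Finset.prod_map]
    exact Finset.prod_congr rfl fun q _ => quotientFunc_smul f hh q
  simp_rw [key]
  have h2 : (Finset.univ : Finset 𝒬).powersetCard i =
      ((Finset.univ : Finset 𝒬).powersetCard i).map (Finset.mapEmbedding e.toEmbedding).toEmbedding := by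
    rw [← Finset.powersetCard_map, Finset.map_univ_equiv]
  conv_rhs => rw [h2, Finset.sum_map]
  rfl

/-- The `i`-th elementary symmetric function of the conjugates of `f`, as a level one form. -/
noncomputable def mrEsymm (f : ModularForm 𝒢 k) (i : ℕ) : ModularForm 𝒮ℒ (k * i) where
  toFun := mrEsymmFun f i
  slash_action_eq' h hh := mrEsymmFun_slash f i hh
  holo' := by
    let := Fintype.ofFinite 𝒬
    exact .sum fun S _ => .prod (Quotient.forall.mpr fun ⟨r, hr⟩ _ ↦ (ModularForm.translate f r⁻¹).holo')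
  bdd_at_cusps' h γ := by
    rintro rfl
    let := Fintype.ofFinite 𝒬
    rw [mrEsymmFun_slash_gen, IsBoundedAtImInfty, Filter.BoundedAtFilter]
    apply Asymptotics.IsBigO.const_smul_left
    rw [Finset.sum_fn]
    refine .fun_sum fun S _ => ?_
    rw [show (1 : ℍ → ℝ) = (fun x ↦ ∏ (i ∈ S), 1) by ext; simp, Finset.prod_fn]
    refine .finsetProd (Quotient.forall.mpr fun ⟨r, hr⟩ _ ↦ (ModularForm.translate f _).bdd_at_cusps' ?_ γ rfl)
    simpa using h.of_isFiniteRelIndex_conj hr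

lemma mrEsymm_apply (f : ModularForm 𝒢 k) (i : ℕ) (τ : ℍ) :
    mrEsymm f i τ =
      let := Fintype.ofFinite 𝒬
      ∑ S ∈ (Finset.univ : Finset 𝒬).powersetCard i, ∏ q ∈ S, quotientFunc f q τ := by
  let := Fintype.ofFinite 𝒬
  show mrEsymmFun f i τ = _
  simp [mrEsymmFun, Finset.sum_apply, Finset.prod_apply]

lemma mrEsymm_relation (f : ModularForm 𝒢 k) (τ : ℍ) :
    ∑ i ∈ Finset.range (Nat.card 𝒬 + 1),
      ((-1 : ℂ) ^ i * mrEsymm f i τ) * f τ ^ (Nat.card 𝒬 - i) = 0 := by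
  classical
  let := Fintype.ofFinite 𝒬
  set s : Multiset ℂ := (Finset.univ : Finset 𝒬).val.map (fun q => quotientFunc f q τ) with hs
  have hcard : Multiset.card s = Nat.card 𝒬 := by
    simp [hs, Nat.card_eq_fintype_card]
  have h1 := congrArg (Polynomial.eval (f τ)) (Multiset.prod_X_sub_X_eq_sum_esymm s)
  have h0 : Polynomial.eval (f τ) (s.map fun t => Polynomial.X - Polynomial.C t).prod = 0 := by
    rw [Polynomial.eval_multiset_prod]
    apply Multiset.prod_eq_zero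
    simp only [hs, Multiset.map_map, Multiset.mem_map, Finset.mem_val, Finset.mem_univ, true_and,
      Function.comp]
    refine ⟨⟦1⟧, ?_⟩
    simp
  rw [h0, Polynomial.eval_finsetSum, hcard] at h1
  rw [h1]
  refine Finset.sum_congr rfl fun i _ => ?_
  rw [mrEsymm_apply, hs, Finset.esymm_map_val]
  simp only [Polynomial.eval_mul, Polynomial.eval_pow, Polynomial.eval_neg, Polynomial.eval_one,
    Polynomial.eval_C, Polynomial.eval_X, mul_assoc]

lemma mrEsymm_isZeroAtImInfty (f : ModularForm 𝒢 k)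
    (hf : ∀ γ : SL(2, ℤ), IsZeroAtImInfty (⇑f ∣[k] γ)) (i : ℕ) (hi : 1 ≤ i) :
    IsZeroAtImInfty (mrEsymm f i) := by
  let := Fintype.ofFinite 𝒬
  have hq : ∀ q : 𝒬, IsZeroAtImInfty (quotientFunc f q) := by
    refine Quotient.forall.mpr fun ⟨r, hr⟩ => ?_
    obtain ⟨γ, rfl⟩ := hr
    have := hf γ⁻¹
    rw [ModularForm.SL_slash, map_inv] at this
    exact this
  show IsZeroAtImInfty (mrEsymmFun f i)
  unfold mrEsymmFun
  rw [IsZeroAtImInfty, Filter.ZeroAtFilter,
    show (0 : ℂ) = ∑ S ∈ (Finset.univ : Finset 𝒬).powersetCard i, 0 by simp, Finset.sum_fn]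
  refine tendsto_finsetSum _ fun S hS => ?_
  have hcard : S.card = i := (Finset.mem_powersetCard.mp hS).2
  have hne : S.card ≠ 0 := by omega
  have h1 := tendsto_finsetProd S (fun q _ => hq q)
  rw [Finset.prod_const, zero_pow hne] at h1
  rw [Finset.prod_fn]
  exact h1

theorem exists_monic_relation {𝒢 : Subgroup (GL (Fin 2) ℝ)} [𝒢.IsArithmetic] {k : ℤ}
    (f : ModularForm 𝒢 k) :
    ∃ (d : ℕ) (c : (i : ℕ) → ModularForm 𝒮ℒ (k * i)), ⇑(c 0) = 1 ∧
      (∀ τ : ℍ, ∑ i ∈ Finset.range (d + 1), c i τ * f τ ^ (d - i) = 0) ∧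
      ((∀ γ : SL(2, ℤ), IsZeroAtImInfty (⇑f ∣[k] γ)) → ∀ i, 1 ≤ i → IsZeroAtImInfty (c i)) := by
  refine ⟨Nat.card (𝒮ℒ ⧸ (𝒢.subgroupOf 𝒮ℒ)), fun i => ((-1 : ℂ) ^ i) • mrEsymm f i, ?_, ?_, ?_⟩
  · ext τ
    show ((-1 : ℂ) ^ 0 • mrEsymm f 0) τ = 1
    rw [pow_zero, one_smul, mrEsymm_apply]
    simp
  · intro τ
    simpa using mrEsymm_relation f τ
  · intro hf i hi
    have := mrEsymm_isZeroAtImInfty f hf i hi
    rw [FunLike.coe_smul]
    exact this.smul _

end MonicRelation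

end Fermat.Agent.S23
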