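/-
S23 helper library: weight-agnostic calculus of q-expansions for functions on the upper half
plane which are 1-periodic, holomorphic and bounded at infinity.
-/
import Fermat.Agent.S23.Defs

set_option autoImplicit false

open UpperHalfPlane ModularForm
open scoped MatrixGroups Manifold

namespace Fermat.Agent.S23

/-- 1-periodic, holomorphic, bounded at `i∞`. -/
structure Nice (F : ℍ → ℂ) : Prop where
  per : Function.Periodic (F ∘ ofComplex) 1
  holo : MDiff F
  bdd : IsBoundedAtImInfty F

namespace Nice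

variable {F G : ℍ → ℂ}

theorem analytic (hF : Nice F) : AnalyticAt ℂ (cuspFunction 1 F) 0 :=
  analyticAt_cuspFunction_zero one_pos hF.per hF.holo hF.bdd

theorem of_modularForm {Γ : Subgroup (GL (Fin 2) ℝ)} {k : ℤ} (h1 : (1 : ℝ) ∈ Γ.strictPeriods)
    (f : ModularForm Γ k) : Nice f :=
  have : Fact (IsCusp OnePoint.infty Γ) := ⟨Γ.isCusp_of_mem_strictPeriods one_pos h1⟩
  ⟨SlashInvariantFormClass.periodic_comp_ofComplex f h1, ModularFormClass.holo f,
    ModularFormClass.bdd_at_infty f⟩

theorem of_levelOne {k : ℤ} (f : ModularForm 𝒮ℒ k) : Nice f :=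
  of_modularForm one_mem_strictPeriods_SL f

theorem zero : Nice (0 : ℍ → ℂ) :=
  ⟨fun _ => rfl, fun _ => mdifferentiableAt_const, zero_form_isBoundedAtImInfty⟩

theorem const (c : ℂ) : Nice (fun _ => c : ℍ → ℂ) :=
  ⟨fun _ => rfl, fun _ => mdifferentiableAt_const, Filter.const_boundedAtFilter _ c⟩

theorem one : Nice (1 : ℍ → ℂ) := const 1

theorem add (hF : Nice F) (hG : Nice G) : Nice (F + G) :=
  ⟨hF.per.add hG.per, hF.holo.add hG.holo, hF.bdd.add hG.bdd⟩

theorem mul (hF : Nice F) (hG : Nice G) : Nice (F * G) :=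
  ⟨hF.per.mul hG.per, hF.holo.mul hG.holo, hF.bdd.mul hG.bdd⟩

theorem neg (hF : Nice F) : Nice (-F) :=
  ⟨fun z => by simpa using congrArg Neg.neg (hF.per z), hF.holo.neg, hF.bdd.neg⟩

theorem sub (hF : Nice F) (hG : Nice G) : Nice (F - G) := by
  simpa [sub_eq_add_neg] using hF.add hG.neg

theorem smul (c : ℂ) (hF : Nice F) : Nice (c • F) := by
  have : c • F = (fun _ => c : ℍ → ℂ) * F := by ext; simp
  rw [this]
  exact (const c).mul hF

theorem pow (hF : Nice F) (n : ℕ) : Nice (F ^ n) := by
  induction n with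
  | zero => simpa using one
  | succ n ih => rw [pow_succ]; exact ih.mul hF

theorem sum {ι : Type*} (s : Finset ι) {F : ι → ℍ → ℂ} (hF : ∀ i ∈ s, Nice (F i)) :
    Nice (∑ i ∈ s, F i) := by
  classical
  induction s using Finset.induction_on with
  | empty => simpa using zero
  | insert a s ha ih =>
    rw [Finset.sum_insert ha]
    exact (hF a (Finset.mem_insert_self a s)).add
      (ih fun i hi => hF i (Finset.mem_insert_of_mem hi))

theorem qExp_add (hF : Nice F) (hG : Nice G) :
    qExpansion 1 (F + G) = qExpansion 1 F + qExpansion 1 G :=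
  qExpansion_add hF.analytic hG.analytic

theorem qExp_mul (hF : Nice F) (hG : Nice G) :
    qExpansion 1 (F * G) = qExpansion 1 F * qExpansion 1 G :=
  qExpansion_mul hF.analytic hG.analytic

theorem qExp_smul (c : ℂ) (hF : Nice F) : qExpansion 1 (c • F) = c • qExpansion 1 F :=
  qExpansion_smul hF.analytic c

theorem qExp_pow (hF : Nice F) (n : ℕ) : qExpansion 1 (F ^ n) = qExpansion 1 F ^ n := by
  induction n with
  | zero => simpa using qExpansion_one 1
  | succ n ih => rw [pow_succ, (hF.pow n).qExp_mul hF, ih, pow_succ]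

theorem qExp_sum {ι : Type*} (s : Finset ι) {F : ι → ℍ → ℂ} (hF : ∀ i ∈ s, Nice (F i)) :
    qExpansion 1 (∑ i ∈ s, F i) = ∑ i ∈ s, qExpansion 1 (F i) := by
  classical
  induction s using Finset.induction_on with
  | empty => simpa using qExpansion_zero 1
  | insert a s ha ih =>
    rw [Finset.sum_insert ha, Finset.sum_insert ha,
      (hF a (Finset.mem_insert_self a s)).qExp_add
        (sum s fun i hi => hF i (Finset.mem_insert_of_mem hi)),
      ih fun i hi => hF i (Finset.mem_insert_of_mem hi)]

theorem eq_zero (hF : Nice F) (h : qExpansion 1 F = 0) : F = 0 :=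
  (qExpansion_eq_zero_iff one_pos hF.per hF.holo hF.bdd).mp h

theorem qExp_sub (hF : Nice F) (hG : Nice G) :
    qExpansion 1 (F - G) = qExpansion 1 F - qExpansion 1 G :=
  qExpansion_sub hF.analytic hG.analytic

theorem ext (hF : Nice F) (hG : Nice G) (h : qExpansion 1 F = qExpansion 1 G) : F = G := by
  have := (hF.sub hG).eq_zero (by rw [hF.qExp_sub hG, h, sub_self])
  exact sub_eq_zero.mp this

/-- A nice function whose q-expansion has vanishing constant term tends to `0` at `i∞`. -/
theorem isZeroAtImInfty (hF : Nice F) (h : PowerSeries.coeff 0 (qExpansion 1 F) = 0) :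
    IsZeroAtImInfty F := by
  have h0 : cuspFunction 1 F 0 = 0 := by
    simpa [qExpansion_coeff] using h
  have hcomp : (cuspFunction 1 F ∘ fun τ : ℍ ↦ Function.Periodic.qParam 1 τ : ℍ → ℂ) = F := by
    funext τ
    simpa using eq_cuspFunction τ one_ne_zero hF.per
  have := hF.analytic.continuousAt.tendsto.comp (qParam_tendsto_atImInfty one_pos)
  rw [hcomp, h0] at this
  exact this

theorem coeff_zero_of_isZeroAtImInfty (hF : IsZeroAtImInfty F) :
    PowerSeries.coeff 0 (qExpansion 1 F) = 0 := by
  simp [qExpansion_coeff, hF.cuspFunction_apply_zero one_pos]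

end Nice

end Fermat.Agent.S23
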