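/-
S23-B: a primitive element `t(z) = E₄(N z)` for `Γ₀(N)`: a weight 4 modular form on `Γ₀(N)` with
integral `q`-expansion whose stabiliser in `SL(2, ℤ)` (weight 4 slash action) is exactly `Γ₀(N)`.
-/
import Fermat.Agent.S23.Defs
import Fermat.Prelude.Def_ModularForm_HeckeOperator
import Fermat.Prelude.Thm_CongruenceSubgroup_one_mem_strictPeriods_Gamma0

set_option autoImplicit false
open UpperHalfPlane ModularForm
open scoped MatrixGroups Manifold

namespace Fermat.Agent.S23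

theorem prim_mapGL_apply (δ : SL(2, ℤ)) (i j : Fin 2) :
    ((Matrix.SpecialLinearGroup.mapGL ℝ δ : GL (Fin 2) ℝ) : Matrix (Fin 2) (Fin 2) ℝ) i j
      = ((δ.1 i j : ℤ) : ℝ) := by
  simp

theorem prim_exists_SL (a b c d : ℤ) (h : a * d - b * c = 1) :
    ∃ δ : SL(2, ℤ), δ.1 0 0 = a ∧ δ.1 0 1 = b ∧ δ.1 1 0 = c ∧ δ.1 1 1 = d :=
  ⟨⟨!![a, b; c, d], by rw [Matrix.det_fin_two_of]; exact h⟩, rfl, rfl, rfl, rfl⟩

open ConjAct Pointwise in
theorem prim_Gamma0_le (N : ℕ) [NeZero N] :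
    ((CongruenceSubgroup.Gamma0 N : Subgroup SL(2, ℤ)) : Subgroup (GL (Fin 2) ℝ)) ≤
      toConjAct (heckeDiagMatrix N)⁻¹ • 𝒮ℒ := by
  rintro _ ⟨γ, hγ, rfl⟩
  rw [Subgroup.mem_pointwise_smul_iff_inv_smul_mem]
  have hN : N ≠ 0 := NeZero.ne N
  rw [SetLike.mem_coe, CongruenceSubgroup.Gamma0_mem, ZMod.intCast_zmod_eq_zero_iff_dvd] at hγ
  obtain ⟨c', hc'⟩ := hγ
  have hdet : γ.1 0 0 * γ.1 1 1 - γ.1 0 1 * γ.1 1 0 = 1 := by
    have := γ.2
    rwa [Matrix.det_fin_two] at this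
  obtain ⟨δ, h00, h01, h10, h11⟩ := prim_exists_SL (γ.1 0 0) (N * γ.1 0 1) c' (γ.1 1 1)
    (by rw [hc'] at hdet; linarith)
  refine ⟨δ, ?_⟩
  rw [← map_inv, inv_inv, ConjAct.smul_def, ConjAct.ofConjAct_toConjAct, eq_mul_inv_iff_mul_eq]
  apply Units.ext
  ext i j
  have hc'' : ((γ.1 1 0 : ℤ) : ℝ) = (N : ℝ) * (c' : ℝ) := by rw [hc']; push_cast; ring
  rw [Units.val_mul, Units.val_mul, Matrix.mul_apply, Matrix.mul_apply, Fin.sum_univ_two,
    Fin.sum_univ_two, val_heckeDiagMatrix hN]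
  simp only [prim_mapGL_apply]
  fin_cases i <;> fin_cases j <;> simp [h00, h01, h10, h11, hc''] <;> ring

/-- `t(τ) = E₄(Nτ)` as a modular form on `Γ₀(N)`. -/
noncomputable def primT (N : ℕ) [NeZero N] :
    ModularForm ((CongruenceSubgroup.Gamma0 N : Subgroup SL(2, ℤ)) : Subgroup (GL (Fin 2) ℝ)) 4 :=
  (((N : ℂ) ^ 3)⁻¹ : ℂ) •
    restrictLevel (prim_Gamma0_le N) (ModularForm.translate E₄ (heckeDiagMatrix N))

theorem primT_coe (N : ℕ) [NeZero N] :
    ⇑(primT N) = (((N : ℂ) ^ 3)⁻¹ : ℂ) • (⇑E₄ ∣[(4 : ℤ)] heckeDiagMatrix N) := by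
  rfl

theorem primT_apply (N : ℕ) [NeZero N] (τ : ℍ) :
    primT N τ = E₄ (heckeDiagMatrix N • τ) := by
  have hN : (N : ℂ) ≠ 0 := Nat.cast_ne_zero.mpr (NeZero.ne N)
  rw [primT_coe, Pi.smul_apply, slash_heckeDiagMatrix_apply 4 (NeZero.ne N), smul_eq_mul]
  norm_num
  field_simp

theorem prim_E4_coeff_int (n : ℕ) : ∃ m : ℤ, (qExpansion 1 E₄).coeff n = (m : ℂ) := by
  rw [EisensteinSeries.E_qExpansion_coeff (by norm_num) (by decide)]
  split_ifs with h
  · exact ⟨1, by simp⟩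
  · refine ⟨240 * (ArithmeticFunction.sigma 3 n : ℤ), ?_⟩
    have hb : bernoulli 4 = -1 / 30 := by
      decide +kernel
    rw [hb]
    push_cast
    norm_num
    
theorem primT_qExpansion_mem (N : ℕ) [NeZero N] : qExpansion 1 (primT N) ∈ intSeries := by
  have hN : N ≠ 0 := NeZero.ne N
  rw [mem_intSeries_iff]
  set c : ℕ → ℂ := fun n => if N ∣ n then (qExpansion 1 E₄).coeff (n / N) else 0 with hc
  have hsum : ∀ τ : ℍ, HasSum (fun m ↦ c m • Function.Periodic.qParam 1 τ ^ m) (primT N τ) := by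
    intro τ
    have h1 := ModularForm.hasSum_qExpansion E₄ one_pos one_mem_strictPeriods_SL
      (heckeDiagMatrix N • τ)
    have hq : Function.Periodic.qParam 1 ((heckeDiagMatrix N • τ : ℍ) : ℂ)
        = Function.Periodic.qParam 1 (τ : ℂ) ^ N := by
      rw [coe_heckeDiagMatrix_smul hN, Function.Periodic.qParam, Function.Periodic.qParam,
        ← Complex.exp_nat_mul]
      congr 1
      ring
    rw [primT_apply]
    have hinj : Function.Injective (fun m : ℕ => N * m) := fun a b h =>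
      Nat.eq_of_mul_eq_mul_left (Nat.pos_of_ne_zero hN) h
    rw [← hinj.hasSum_iff]
    · convert h1 using 2 with m
      simp only [Function.comp, hc, dvd_mul_right, if_true, Nat.mul_div_cancel_left _
        (Nat.pos_of_ne_zero hN), hq, smul_eq_mul, pow_mul]
    · intro x hx
      have : ¬ N ∣ x := fun ⟨y, hy⟩ => hx ⟨y, hy.symm⟩
      simp [hc, this]
  intro n
  rw [← ModularFormClass.qExpansion_coeff_unique one_pos
    (CongruenceSubgroup.one_mem_strictPeriods_Gamma0 N) hsum n]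
  simp only [hc]
  split_ifs
  · exact prim_E4_coeff_int _
  · exact ⟨0, by simp⟩

theorem prim_tendsto_E4 : Filter.Tendsto (⇑E₄) atImInfty (nhds 1) := by
  have han := ModularFormClass.analyticAt_cuspFunction_zero E₄ one_pos one_mem_strictPeriods_SL
  have h0 : cuspFunction 1 E₄ 0 = 1 := by
    have := EisensteinSeries.E_qExpansion_coeff_zero (k := 4) (by norm_num) (by decide)
    rw [qExpansion_coeff] at this
    simpa using this
  have hcomp : (cuspFunction 1 E₄ ∘ fun τ : ℍ ↦ Function.Periodic.qParam 1 τ : ℍ → ℂ) = ⇑E₄ := by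
    funext τ
    exact SlashInvariantFormClass.eq_cuspFunction E₄ τ one_mem_strictPeriods_SL one_ne_zero
  have := han.continuousAt.tendsto.comp (qParam_tendsto_atImInfty one_pos)
  rwa [hcomp, h0] at this

/-- Hermite-type decomposition of `diag(N,1) * h`. -/
theorem prim_decomp (N : ℕ) [NeZero N] (h : SL(2, ℤ)) :
    ∃ (δ : SL(2, ℤ)) (g b' d' : ℤ) (hgd : (g : ℝ) * (d' : ℝ) ≠ 0), 0 < g ∧ 0 < d' ∧ g * d' = N ∧
      g ∣ h.1 1 0 ∧
      Matrix.SpecialLinearGroup.mapGL ℝ δ * (heckeDiagMatrix N * Matrix.SpecialLinearGroup.mapGL ℝ h)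
        = upperTriangularGL g b' d' hgd := by
  have hN : N ≠ 0 := NeZero.ne N
  have hdet : h.1 0 0 * h.1 1 1 - h.1 0 1 * h.1 1 0 = 1 := by
    have := h.2
    rwa [Matrix.det_fin_two] at this
  set a := h.1 0 0 with ha
  set b := h.1 0 1 with hb
  set c := h.1 1 0 with hc
  set d := h.1 1 1 with hd
  set g : ℤ := (Int.gcd (N * a) c : ℤ) with hg
  have hg0 : g ≠ 0 := by
    intro h0
    rw [hg, Int.natCast_eq_zero, Int.gcd_eq_zero_iff] at h0
    obtain ⟨h1, h2⟩ := h0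
    have hNz : (N : ℤ) ≠ 0 := by exact_mod_cast hN
    have ha0 : a = 0 := by
      rcases mul_eq_zero.mp h1 with h | h
      · exact absurd h hNz
      · exact h
    rw [ha0, h2] at hdet
    simp at hdet
  have hgpos : 0 < g := lt_of_le_of_ne (Int.natCast_nonneg _) (Ne.symm hg0)
  obtain ⟨a', ha'⟩ : g ∣ N * a := Int.gcd_dvd_left _ _
  obtain ⟨c', hc'⟩ : g ∣ c := Int.gcd_dvd_right _ _
  set u := Int.gcdA (N * a) c with hu
  set v := Int.gcdB (N * a) c with hv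
  have hbez : g = N * a * u + c * v := Int.gcd_eq_gcd_ab _ _
  have hbez' : u * a' + v * c' = 1 := by
    have : g * (u * a' + v * c') = g * 1 := by
      calc g * (u * a' + v * c') = (g * a') * u + (g * c') * v := by ring
        _ = N * a * u + c * v := by rw [← ha', ← hc']
        _ = g * 1 := by rw [← hbez, mul_one]
    exact mul_left_cancel₀ hg0 this
  set d' : ℤ := a' * d - c' * (N * b) with hd'
  have hgd' : g * d' = N := by
    calc g * d' = (g * a') * d - (g * c') * (N * b) := by rw [hd']; ring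
      _ = N * a * d - c * (N * b) := by rw [← ha', ← hc']
      _ = N * (a * d - b * c) := by ring
      _ = N := by rw [hdet, mul_one]
  have hNpos : (0 : ℤ) < N := by exact_mod_cast Nat.pos_of_ne_zero hN
  have hd'pos : 0 < d' := by
    by_contra hcon
    push Not at hcon
    have : g * d' ≤ 0 := mul_nonpos_of_nonneg_of_nonpos hgpos.le hcon
    omega
  obtain ⟨δ, h00, h01, h10, h11⟩ := prim_exists_SL u v (-c') a' (by linarith)
  have hgdR : (g : ℝ) * (d' : ℝ) ≠ 0 := by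
    have : ((g * d' : ℤ) : ℝ) = (N : ℝ) := by rw [hgd']; simp
    rw [← Int.cast_mul, this]
    exact_mod_cast hN
  refine ⟨δ, g, u * (N * b) + v * d, d', hgdR, hgpos, hd'pos, hgd', ⟨c', hc'⟩, ?_⟩
  apply Units.ext
  ext i j
  rw [Units.val_mul, Units.val_mul, Matrix.mul_apply, Fin.sum_univ_two, Matrix.mul_apply,
    Matrix.mul_apply, Fin.sum_univ_two, Fin.sum_univ_two, val_heckeDiagMatrix hN,
    val_upperTriangularGL]
  simp only [prim_mapGL_apply]
  have e1 : ((N : ℝ) * (a : ℝ)) = (g : ℝ) * (a' : ℝ) := by exact_mod_cast ha'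
  have e2 : (c : ℝ) = (g : ℝ) * (c' : ℝ) := by exact_mod_cast hc'
  have e3 : (g : ℝ) = N * a * u + c * v := by exact_mod_cast hbez
  have e4 : (d' : ℝ) = a' * d - c' * (N * b) := by rw [hd']; push_cast; ring
  fin_cases i <;> fin_cases j <;>
    simp only [h00, h01, h10, h11, ← ha, ← hb, ← hc, ← hd, Fin.zero_eta, Fin.isValue, Fin.mk_one,
      Matrix.of_apply, Matrix.cons_val', Matrix.cons_val_zero, Matrix.cons_val_one,
      Matrix.cons_val_fin_one, Int.cast_neg, Int.cast_add, Int.cast_mul, Int.cast_natCast]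
  · rw [e3]; ring
  · ring
  · linear_combination (-(c' : ℝ)) * e1 + (a' : ℝ) * e2
  · rw [e4]; ring

theorem prim_tendsto_T (N : ℕ) [NeZero N] : Filter.Tendsto (⇑(primT N)) atImInfty (nhds 1) := by
  have h1 : Filter.Tendsto (fun τ : ℍ => heckeDiagMatrix N • τ) atImInfty atImInfty :=
    tendsto_smul_atImInfty (by simp [val_heckeDiagMatrix (NeZero.ne N)])
  have := prim_tendsto_E4.comp h1
  convert this using 1
  funext τ
  exact primT_apply N τ

theorem prim_slash_upper (g b' d' : ℝ) (hgd : g * d' ≠ 0) (hg : 0 < g) (hd : 0 < d') (τ : ℍ) :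
    (⇑E₄ ∣[(4 : ℤ)] upperTriangularGL g b' d' hgd) τ =
      E₄ (upperTriangularGL g b' d' hgd • τ) * ((g * d' : ℝ) : ℂ) ^ 3 * ((d' : ℝ) : ℂ) ^ (-4 : ℤ) := by
  have hdet : ((upperTriangularGL g b' d' hgd).det : ℝ) = g * d' := by
    rw [Matrix.GeneralLinearGroup.val_det_apply, val_upperTriangularGL, Matrix.det_fin_two_of]
    ring
  have hpos : 0 < ((upperTriangularGL g b' d' hgd).det : ℝ) := by
    rw [hdet]; positivity
  rw [ModularForm.slash_apply, UpperHalfPlane.σ, if_pos hpos, hdet]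
  simp only [ContinuousAlgEquiv.refl_apply]
  rw [abs_of_pos (by positivity)]
  have hden : UpperHalfPlane.denom (upperTriangularGL g b' d' hgd) τ = (d' : ℂ) := by
    simp [UpperHalfPlane.denom]
  rw [hden]
  norm_num

theorem primT_stab (N : ℕ) [NeZero N] (h : SL(2, ℤ))
    (hh : ⇑(primT N) ∣[(4 : ℤ)] h = ⇑(primT N)) : h ∈ CongruenceSubgroup.Gamma0 N := by
  have hN : N ≠ 0 := NeZero.ne N
  have hNC : (N : ℂ) ≠ 0 := Nat.cast_ne_zero.mpr hN
  obtain ⟨δ, g, b', d', hgd, hg, hd, hgdN, hgc, hmat⟩ := prim_decomp N h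
  -- rewrite `t ∣ h`
  have h1 : ⇑(primT N) ∣[(4 : ℤ)] h =
      (((N : ℂ) ^ 3)⁻¹ : ℂ) • (⇑E₄ ∣[(4 : ℤ)] upperTriangularGL g b' d' hgd) := by
    have hE : ⇑E₄ ∣[(4 : ℤ)] (Matrix.SpecialLinearGroup.mapGL ℝ δ) = ⇑E₄ :=
      SlashInvariantFormClass.slash_action_eq E₄ (Matrix.SpecialLinearGroup.mapGL ℝ δ)
        (MonoidHom.mem_range.mpr ⟨δ, rfl⟩)
    have hcoe : (⇑E₄ ∣[(4 : ℤ)] heckeDiagMatrix N) ∣[(4 : ℤ)] h =
        (⇑E₄ ∣[(4 : ℤ)] heckeDiagMatrix N) ∣[(4 : ℤ)] (Matrix.SpecialLinearGroup.mapGL ℝ h) := rfl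
    rw [primT_coe, ModularForm.SL_smul_slash, hcoe, ← hmat,
      SlashAction.slash_mul _ (Matrix.SpecialLinearGroup.mapGL ℝ δ), hE, SlashAction.slash_mul]
  have hgR : (0 : ℝ) < g := by exact_mod_cast hg
  have hdR : (0 : ℝ) < d' := by exact_mod_cast hd
  have hgdR : ((g : ℝ) * (d' : ℝ)) = N := by exact_mod_cast hgdN
  have h2 : Filter.Tendsto (⇑(primT N) ∣[(4 : ℤ)] h) atImInfty
      (nhds ((((N : ℂ) ^ 3)⁻¹ : ℂ) * (1 * (((g : ℝ) * (d' : ℝ) : ℝ) : ℂ) ^ 3 *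
        (((d' : ℝ) : ℂ)) ^ (-4 : ℤ)))) := by
    rw [h1]
    have h3 : Filter.Tendsto (fun τ : ℍ => upperTriangularGL g b' d' hgd • τ) atImInfty atImInfty :=
      tendsto_smul_atImInfty (by simp)
    have h4 := prim_tendsto_E4.comp h3
    have h5 := ((h4.mul_const ((((g : ℝ) * (d' : ℝ) : ℝ) : ℂ) ^ 3)).mul_const
      ((((d' : ℝ) : ℂ)) ^ (-4 : ℤ))).const_mul (((N : ℂ) ^ 3)⁻¹ : ℂ)
    convert h5 using 1
    funext τ
    rw [Pi.smul_apply, prim_slash_upper _ _ _ hgd hgR hdR, smul_eq_mul]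
    rfl
  rw [hh] at h2
  have h6 := tendsto_nhds_unique (prim_tendsto_T N) h2
  rw [hgdR] at h6
  have h7 : ((d' : ℝ) : ℂ) ^ (4 : ℕ) = 1 := by
    have hd0 : ((d' : ℝ) : ℂ) ≠ 0 := by exact_mod_cast hdR.ne'
    have : (1 : ℂ) = (((d' : ℝ) : ℂ)) ^ (-4 : ℤ) := by
      rw [h6]
      push_cast
      field_simp
    rw [zpow_neg, eq_comm, inv_eq_one] at this
    exact_mod_cast this
  have h8 : d' ^ 4 = 1 := by exact_mod_cast h7
  have h9 : d' = 1 := by
    rcases (pow_eq_one_iff_of_ne_zero (by norm_num : (4 : ℕ) ≠ 0)).mp h8 with h | ⟨h, _⟩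
    · exact h
    · omega
  rw [h9, mul_one] at hgdN
  rw [CongruenceSubgroup.Gamma0_mem, ZMod.intCast_zmod_eq_zero_iff_dvd, ← hgdN]
  exact hgc

theorem exists_primitive (N : ℕ) [NeZero N] :
    ∃ t : ModularForm ((CongruenceSubgroup.Gamma0 N : Subgroup SL(2, ℤ)) : Subgroup (GL (Fin 2) ℝ)) 4,
      qExpansion 1 t ∈ intSeries ∧
      ∀ h : SL(2, ℤ), (⇑t ∣[(4 : ℤ)] h = ⇑t) → h ∈ CongruenceSubgroup.Gamma0 N :=
  ⟨primT N, primT_qExpansion_mem N, primT_stab N⟩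

end Fermat.Agent.S23
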