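/-
S23-E: analytic division lemma (removable singularities).
-/
import Fermat.Agent.S23.Defs

set_option autoImplicit false

open UpperHalfPlane ModularForm
open scoped MatrixGroups Manifold

namespace Fermat.Agent.S23

open Filter Topology

/-! ### Cauchy bound -/

/-- Cauchy bound for roots of a monic polynomial relation. -/
theorem quot_cauchy_bound (d : ℕ) (a : ℕ → ℂ) (ha0 : a 0 = 1) (x : ℂ)
    (h : ∑ i ∈ Finset.range (d + 1), a i * x ^ (d - i) = 0) :
    ‖x‖ ≤ 1 + ∑ i ∈ Finset.range d, ‖a (i + 1)‖ := by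
  have hS : 0 ≤ ∑ i ∈ Finset.range d, ‖a (i + 1)‖ := Finset.sum_nonneg fun _ _ => norm_nonneg _
  rcases le_or_gt ‖x‖ 1 with h1 | h1
  · linarith
  rw [Finset.sum_range_succ', ha0, one_mul, Nat.sub_zero] at h
  have hx : x ^ d = - ∑ i ∈ Finset.range d, a (i + 1) * x ^ (d - (i + 1)) := by
    linear_combination h
  rcases Nat.eq_zero_or_pos d with rfl | hd
  · simp at hx
  have hle : ‖x‖ ^ d ≤ (∑ i ∈ Finset.range d, ‖a (i + 1)‖) * ‖x‖ ^ (d - 1) := by
    rw [← norm_pow, hx, norm_neg, Finset.sum_mul]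
    refine (norm_sum_le _ _).trans (Finset.sum_le_sum fun i _ => ?_)
    rw [norm_mul, norm_pow]
    exact mul_le_mul_of_nonneg_left (pow_le_pow_right₀ h1.le (by omega)) (norm_nonneg _)
  have hpos : 0 < ‖x‖ ^ (d - 1) := pow_pos (by linarith) _
  have : ‖x‖ ^ d = ‖x‖ * ‖x‖ ^ (d - 1) := by
    rw [← pow_succ']; congr 1; omega
  rw [this] at hle
  have := le_of_mul_le_mul_right hle hpos
  linarith

/-- A bound for the `d`-th power of a root, which is small when the lower coefficients are. -/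
theorem quot_cauchy_bound_pow (d : ℕ) (a : ℕ → ℂ) (ha0 : a 0 = 1) (x : ℂ)
    (h : ∑ i ∈ Finset.range (d + 1), a i * x ^ (d - i) = 0) :
    ‖x‖ ^ d ≤ (∑ i ∈ Finset.range d, ‖a (i + 1)‖) *
      (1 + ∑ i ∈ Finset.range d, ‖a (i + 1)‖) ^ d := by
  have hS : 0 ≤ ∑ i ∈ Finset.range d, ‖a (i + 1)‖ := Finset.sum_nonneg fun _ _ => norm_nonneg _
  have hb := quot_cauchy_bound d a ha0 x h
  rw [Finset.sum_range_succ', ha0, one_mul, Nat.sub_zero] at h
  have hx : x ^ d = - ∑ i ∈ Finset.range d, a (i + 1) * x ^ (d - (i + 1)) := by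
    linear_combination h
  rw [← norm_pow, hx, norm_neg, Finset.sum_mul]
  refine (norm_sum_le _ _).trans (Finset.sum_le_sum fun i _ => ?_)
  rw [norm_mul, norm_pow]
  refine mul_le_mul_of_nonneg_left ?_ (norm_nonneg _)
  calc ‖x‖ ^ (d - (i + 1)) ≤ (1 + ∑ i ∈ Finset.range d, ‖a (i + 1)‖) ^ (d - (i + 1)) :=
        pow_le_pow_left₀ (norm_nonneg _) hb _
    _ ≤ (1 + ∑ i ∈ Finset.range d, ‖a (i + 1)‖) ^ d :=
        pow_le_pow_right₀ (by linarith) (by omega)

/-! ### Removable singularities of a quotient -/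

/-- The candidate extension of the quotient `a / δ`. -/
noncomputable def quotExt (a δ : ℂ → ℂ) (z : ℂ) : ℂ :=
  limUnder (𝓝[≠] z) (fun w => a w / δ w)

theorem quotExt_eq_of_ne {a δ : ℂ → ℂ} {z : ℂ} (ha : ContinuousAt a z) (hδ : ContinuousAt δ z)
    (hz : δ z ≠ 0) : quotExt a δ z = a z / δ z :=
  Tendsto.limUnder_eq (tendsto_nhdsWithin_of_tendsto_nhds (ha.div hδ hz))

theorem quotExt_differentiableAt {U : Set ℂ} (hU : IsOpen U) {a δ : ℂ → ℂ}
    (ha : DifferentiableOn ℂ a U) (hδ : DifferentiableOn ℂ δ U) {z : ℂ} (hz : z ∈ U)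
    (hiso : ∀ᶠ w in 𝓝[≠] z, δ w ≠ 0) {C : ℝ} (hbd : ∀ᶠ w in 𝓝[≠] z, ‖a w / δ w‖ ≤ C) :
    DifferentiableAt ℂ (quotExt a δ) z := by
  have hev := hiso.and hbd
  rw [eventually_nhdsWithin_iff, eventually_nhds_iff] at hev
  obtain ⟨t, ht, hto, hzt⟩ := hev
  set s := t ∩ U with hs
  have hso : IsOpen s := hto.inter hU
  have hzs : z ∈ s := ⟨hzt, hz⟩
  have hd : DifferentiableOn ℂ (fun w => a w / δ w) (s \ {z}) := by
    intro w hw
    have hwU : w ∈ U := hw.1.2
    exact ((ha w hwU).mono (fun y hy => hy.1.2)).div ((hδ w hwU).mono (fun y hy => hy.1.2))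
      (ht w hw.1.1 hw.2).1
  have hb : BddAbove (norm ∘ (fun w => a w / δ w) '' (s \ {z})) := by
    refine ⟨C, ?_⟩
    rintro _ ⟨w, hw, rfl⟩
    exact (ht w hw.1.1 hw.2).2
  have key := Complex.differentiableOn_update_limUnder_of_bddAbove (hso.mem_nhds hzs) hd hb
  have heq : quotExt a δ =ᶠ[𝓝 z]
      Function.update (fun w => a w / δ w) z (limUnder (𝓝[≠] z) (fun w => a w / δ w)) := by
    filter_upwards [hso.mem_nhds hzs] with w hw
    by_cases hwz : w = z
    · subst hwz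
      simp [quotExt]
    · rw [Function.update_of_ne hwz]
      have hwU : w ∈ U := hw.2
      exact quotExt_eq_of_ne ((ha w hwU).differentiableAt (hU.mem_nhds hwU)).continuousAt
        ((hδ w hwU).differentiableAt (hU.mem_nhds hwU)).continuousAt (ht w hw.1 hwz).1
  exact ((key z hzs).differentiableAt (hso.mem_nhds hzs)).congr_of_eventuallyEq heq

theorem quotExt_mul_eq {U : Set ℂ} (hU : IsOpen U) {a δ : ℂ → ℂ}
    (ha : DifferentiableOn ℂ a U) (hδ : DifferentiableOn ℂ δ U) {z : ℂ} (hz : z ∈ U)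
    (hiso : ∀ᶠ w in 𝓝[≠] z, δ w ≠ 0) {C : ℝ} (hbd : ∀ᶠ w in 𝓝[≠] z, ‖a w / δ w‖ ≤ C) :
    δ z * quotExt a δ z = a z := by
  have h1 : ContinuousAt (fun w => δ w * quotExt a δ w) z :=
    ((hδ z hz).differentiableAt (hU.mem_nhds hz)).continuousAt.mul
      (quotExt_differentiableAt hU ha hδ hz hiso hbd).continuousAt
  have h2 : ContinuousAt a z := ((ha z hz).differentiableAt (hU.mem_nhds hz)).continuousAt
  have hUev : ∀ᶠ w in 𝓝[≠] z, w ∈ U := eventually_nhdsWithin_of_eventually_nhds (hU.mem_nhds hz)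
  have heq : (fun w => δ w * quotExt a δ w) =ᶠ[𝓝[≠] z] a := by
    filter_upwards [hiso, hUev] with w hw hwU
    rw [quotExt_eq_of_ne ((ha w hwU).differentiableAt (hU.mem_nhds hwU)).continuousAt
      ((hδ w hwU).differentiableAt (hU.mem_nhds hwU)).continuousAt hw]
    field_simp
  have t1 : Tendsto (fun w => δ w * quotExt a δ w) (𝓝[≠] z) (𝓝 (δ z * quotExt a δ z)) :=
    tendsto_nhdsWithin_of_tendsto_nhds h1
  have t2 : Tendsto (fun w => δ w * quotExt a δ w) (𝓝[≠] z) (𝓝 (a z)) :=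
    (tendsto_nhdsWithin_of_tendsto_nhds h2).congr' heq.symm
  exact tendsto_nhds_unique t1 t2

/-! ### Application to modular forms -/

theorem quot_isolated_zeros {Γ : Subgroup (GL (Fin 2) ℝ)} {m : ℤ} (D : ModularForm Γ m)
    (hD : D ≠ 0) {z : ℂ} (hz : 0 < z.im) : ∀ᶠ w in 𝓝[≠] z, (⇑D ∘ ofComplex) w ≠ 0 := by
  by_contra hcon
  rw [not_eventually] at hcon
  have han := (UpperHalfPlane.mdifferentiable_iff.mp D.holo').analyticOnNhd isOpen_upperHalfPlaneSet
  have hpre : IsPreconnected {z : ℂ | 0 < z.im} :=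
    (Complex.isConnected_of_upperHalfPlane subset_rfl (by grind)).isPreconnected
  have h0 := han.eqOn_zero_of_preconnected_of_frequently_eq_zero hpre hz
    (hcon.mono fun w hw => not_not.mp hw)
  apply hD
  ext τ
  have := h0 τ.im_pos
  simpa using this

/-- The relation satisfied by the quotient at a point where the denominator does not vanish. -/
theorem quot_relation_div (d : ℕ) (c : ℕ → ℂ) (D A : ℂ) (hD : D ≠ 0)
    (h : ∑ i ∈ Finset.range (d + 1), c i * D ^ i * A ^ (d - i) = 0) :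
    ∑ i ∈ Finset.range (d + 1), c i * (A / D) ^ (d - i) = 0 := by
  have : ∑ i ∈ Finset.range (d + 1), c i * (A / D) ^ (d - i) =
      (∑ i ∈ Finset.range (d + 1), c i * D ^ i * A ^ (d - i)) / D ^ d := by
    rw [Finset.sum_div]
    refine Finset.sum_congr rfl fun i hi => ?_
    have hi' : i ≤ d := Nat.lt_succ_iff.mp (Finset.mem_range.mp hi)
    have : D ^ d = D ^ i * D ^ (d - i) := by rw [← pow_add]; congr 1; omega
    rw [this, div_pow]
    field_simp
  rw [this, h, zero_div]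

theorem quot_tendsto_zero_of_pow {α : Type*} {l : Filter α} {u : α → ℝ} (hu : ∀ x, 0 ≤ u x)
    {d : ℕ} (hd : d ≠ 0) (h : Tendsto (fun x => u x ^ d) l (𝓝 0)) : Tendsto u l (𝓝 0) := by
  have h1 := h.rpow_const (p := (d : ℝ)⁻¹) (Or.inr (by positivity))
  rw [Real.zero_rpow (by positivity)] at h1
  refine h1.congr fun x => ?_
  exact Real.pow_rpow_inv_natCast (hu x) hd

theorem exists_quotient {𝒢 : Subgroup (GL (Fin 2) ℝ)} [𝒢.IsArithmetic] (h𝒢 : 𝒢 ≤ 𝒮ℒ) {k m : ℤ}
    (A : ModularForm 𝒢 (k + m)) (D : ModularForm 𝒮ℒ m) (hD : D ≠ 0)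
    (d : ℕ) (c : (i : ℕ) → ModularForm 𝒮ℒ (k * i)) (hc0 : ⇑(c 0) = 1)
    (h : ∀ τ : ℍ, ∑ i ∈ Finset.range (d + 1), c i τ * D τ ^ i * A τ ^ (d - i) = 0) :
    ∃ f : ModularForm 𝒢 k, (∀ τ : ℍ, D τ * f τ = A τ) ∧
      ((∀ i, 1 ≤ i → IsZeroAtImInfty (c i)) → ∀ γ : SL(2, ℤ), IsZeroAtImInfty (⇑f ∣[k] γ)) := by
  have hd0 : d ≠ 0 := by
    rintro rfl
    have := h I
    simp [hc0] at this
  set U : Set ℂ := {z | 0 < z.im} with hUdef
  have hU : IsOpen U := isOpen_upperHalfPlaneSet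
  set a : ℂ → ℂ := ⇑A ∘ ofComplex with hadef
  set δ : ℂ → ℂ := ⇑D ∘ ofComplex with hδdef
  have ha : DifferentiableOn ℂ a U := UpperHalfPlane.mdifferentiable_iff.mp A.holo'
  have hδ : DifferentiableOn ℂ δ U := UpperHalfPlane.mdifferentiable_iff.mp D.holo'
  have hiso : ∀ z ∈ U, ∀ᶠ w in 𝓝[≠] z, δ w ≠ 0 := fun z hz => quot_isolated_zeros D hD hz
  -- the bound function
  set S : ℍ → ℝ := fun τ => ∑ i ∈ Finset.range d, ‖c (i + 1) τ‖ with hSdef
  have hScont : Continuous S :=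
    continuous_finsetSum _ fun i _ => (ModularFormClass.continuous (c (i + 1))).norm
  have hbd : ∀ z ∈ U, ∀ᶠ w in 𝓝[≠] z, ‖a w / δ w‖ ≤ 1 + S (ofComplex z) + 1 := by
    intro z hz
    have hcontAt : ContinuousAt (fun w => 1 + S (ofComplex w)) z :=
      continuousAt_const.add
        (hScont.continuousAt.comp (mdifferentiableAt_ofComplex hz).continuousAt)
    have h1 : ∀ᶠ w in 𝓝 z, 1 + S (ofComplex w) < 1 + S (ofComplex z) + 1 :=
      hcontAt.eventually (gt_mem_nhds (by linarith))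
    filter_upwards [hiso z hz, eventually_nhdsWithin_of_eventually_nhds h1] with w hw hw1
    refine le_trans ?_ hw1.le
    exact quot_cauchy_bound d (fun i => c i (ofComplex w)) (by simp [hc0]) _
      (quot_relation_div d _ _ _ hw (h (ofComplex w)))
  set f0 : ℍ → ℂ := fun τ => quotExt a δ τ with hf0def
  have hf0 : MDiff f0 := by
    rw [UpperHalfPlane.mdifferentiable_iff]
    have hψ : DifferentiableOn ℂ (quotExt a δ) U := fun z hz =>
      (quotExt_differentiableAt hU ha hδ hz (hiso z hz) (hbd z hz)).differentiableWithinAt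
    refine hψ.congr fun z hz => ?_
    simp [f0, ofComplex_apply_of_im_pos hz]
  have hmul : ∀ τ : ℍ, D τ * f0 τ = A τ := by
    intro τ
    have := quotExt_mul_eq hU ha hδ τ.im_pos (hiso _ τ.im_pos) (hbd _ τ.im_pos)
    simpa [a, δ] using this
  have hDfun : (⇑D : ℍ → ℂ) ≠ 0 := fun h0 => hD (DFunLike.coe_injective (by simpa using h0))
  have hmulfun : f0 * ⇑D = ⇑A := by
    ext τ
    simp [mul_comm, hmul]
  have hinv : ∀ γ ∈ 𝒢, f0 ∣[k] γ = f0 := by
    intro γ hγ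
    obtain ⟨γ', rfl⟩ := h𝒢 hγ
    have h1 : (f0 * ⇑D) ∣[k + m] γ' = (f0 ∣[k] γ') * (⇑D ∣[m] γ') := mul_slash_SL2 k m γ' f0 D
    have h2 : ⇑D ∣[m] γ' = ⇑D := D.slash_action_eq' _ ⟨γ', rfl⟩
    have h3 : ⇑A ∣[k + m] γ' = ⇑A := A.slash_action_eq' _ hγ
    have h4 : (f0 ∣[k] γ' - f0) * ⇑D = 0 := by
      rw [sub_mul, hmulfun, ← h3, ← hmulfun, h1, h2, sub_self]
    rcases (UpperHalfPlane.mul_eq_zero_iff ((hf0.slash k _).sub hf0) D.holo').mp h4 with h5 | h5
    · exact sub_eq_zero.mp h5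
    · exact absurd h5 hDfun
  -- the monic relation for `f0`
  have hrel : ∀ τ : ℍ, ∑ i ∈ Finset.range (d + 1), c i τ * f0 τ ^ (d - i) = 0 := by
    have hMD : MDiff (∑ i ∈ Finset.range (d + 1), ⇑(c i) * f0 ^ (d - i)) :=
      .sum fun i _ => (c i).holo'.mul (hf0.pow _)
    have hfun : (⇑D) ^ d * (∑ i ∈ Finset.range (d + 1), ⇑(c i) * f0 ^ (d - i)) = 0 := by
      ext τ
      simp only [Pi.mul_apply, Pi.pow_apply, Pi.zero_apply, Finset.sum_apply]
      rw [Finset.mul_sum, ← h τ]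
      refine Finset.sum_congr rfl fun i hi => ?_
      have hi' : i ≤ d := Nat.lt_succ_iff.mp (Finset.mem_range.mp hi)
      have hpow : D τ ^ d = D τ ^ i * D τ ^ (d - i) := by rw [← pow_add]; congr 1; omega
      rw [← hmul τ, mul_pow, hpow]
      ring
    rcases (UpperHalfPlane.mul_eq_zero_iff (D.holo'.pow d) hMD).mp hfun with h5 | h5
    · exact absurd (pow_eq_zero_iff hd0 |>.mp h5) hDfun
    · intro τ
      simpa using congrFun h5 τ
  have hrelγ : ∀ (γ : SL(2, ℤ)) (τ : ℍ),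
      ∑ i ∈ Finset.range (d + 1), c i τ * ((f0 ∣[k] γ) τ) ^ (d - i) = 0 := by
    intro γ τ
    have h1 := hrel (γ • τ)
    have hden : denom γ τ ≠ 0 := denom_ne_zero γ τ
    have hc : ∀ i, c i (γ • τ) = denom γ τ ^ (k * i) * c i τ := fun i =>
      SlashInvariantForm.slash_action_eqn'' (c i)
        (show Matrix.SpecialLinearGroup.mapGL ℝ γ ∈ 𝒮ℒ from ⟨γ, rfl⟩) τ
    have hsum : ∑ i ∈ Finset.range (d + 1), c i τ * ((f0 ∣[k] γ) τ) ^ (d - i) =
        (denom γ τ ^ (-(k * d))) *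
          ∑ i ∈ Finset.range (d + 1), c i (γ • τ) * f0 (γ • τ) ^ (d - i) := by
      rw [Finset.mul_sum]
      refine Finset.sum_congr rfl fun i hi => ?_
      have hi' : i ≤ d := Nat.lt_succ_iff.mp (Finset.mem_range.mp hi)
      have hz : (denom γ τ ^ (-k)) ^ (d - i) = denom γ τ ^ (-(k * d)) * denom γ τ ^ (k * i) := by
        rw [← zpow_natCast, ← zpow_mul, ← zpow_add₀ hden]
        congr 1
        push_cast [Nat.cast_sub hi']
        ring
      rw [SL_slash_apply, hc i, mul_pow, hz]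
      ring
    rw [hsum, h1, mul_zero]
  have hnormγ : ∀ (γ : SL(2, ℤ)) (τ : ℍ), ‖(f0 ∣[k] γ) τ‖ ≤ 1 + S τ := fun γ τ =>
    quot_cauchy_bound d (fun i => c i τ) (by simp [hc0]) _ (hrelγ γ τ)
  have hbddγ : ∀ γ : SL(2, ℤ), IsBoundedAtImInfty (f0 ∣[k] γ) := by
    intro γ
    have hB : (fun τ => 1 + S τ) =O[atImInfty] (1 : ℍ → ℝ) := by
      refine (Asymptotics.isBigO_refl _ _).add ?_
      refine Asymptotics.IsBigO.fun_sum fun i _ => ?_
      exact (ModularFormClass.bdd_at_infty (c (i + 1))).norm_left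
    refine Asymptotics.IsBigO.trans (Asymptotics.IsBigO.of_bound 1 ?_) hB
    refine Eventually.of_forall fun τ => ?_
    rw [one_mul]
    exact (hnormγ γ τ).trans (le_abs_self _)
  refine ⟨{ toFun := f0
            slash_action_eq' := hinv
            holo' := hf0
            bdd_at_cusps' := fun {cc} hcc =>
              (OnePoint.isBoundedAt_iff_forall_SL2Z
                ((Subgroup.IsArithmetic.isCusp_iff_isCusp_SL2Z 𝒢).mp hcc)).mpr
                fun γ _ => hbddγ γ }, hmul, ?_⟩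
  intro hcz γ
  change IsZeroAtImInfty (f0 ∣[k] γ)
  have hS0 : Tendsto S atImInfty (𝓝 0) := by
    have : Tendsto S atImInfty (𝓝 (∑ i ∈ Finset.range d, (0 : ℝ))) :=
      tendsto_finsetSum _ fun i _ => by
        simpa using (hcz (i + 1) (by omega)).norm
    simpa using this
  have hup : Tendsto (fun τ => S τ * (1 + S τ) ^ d) atImInfty (𝓝 0) := by
    have := hS0.mul ((tendsto_const_nhds (x := (1 : ℝ))).add hS0 |>.pow d)
    simpa using this
  have hpow : Tendsto (fun τ => ‖(f0 ∣[k] γ) τ‖ ^ d) atImInfty (𝓝 0) :=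
    squeeze_zero (fun τ => by positivity)
      (fun τ => quot_cauchy_bound_pow d (fun i => c i τ) (by simp [hc0]) _ (hrelγ γ τ)) hup
  exact tendsto_zero_iff_norm_tendsto_zero.mpr
    (quot_tendsto_zero_of_pow (fun _ => norm_nonneg _) hd0 hpow)

end Fermat.Agent.S23
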