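/-
S23 helper library: assembly.  For every level `N ≥ 1` and weight `k`, the space of cusp forms
`S_k(Γ₀(N))` is spanned by forms with integral q-expansion.
-/
import Fermat.Agent.S23.Nice
import Fermat.Agent.S23.LevelOne
import Fermat.Agent.S23.Primitive
import Fermat.Agent.S23.MonicRelation
import Fermat.Agent.S23.Denominator
import Fermat.Agent.S23.Quotient
import Fermat.Agent.S23.AutComplex
import Fermat.Agent.S23.Descent
import Fermat.Agent.S23.BoundedDenominators
import Fermat.Prelude.Def_CuspForm_IntegralStructure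
import Fermat.Prelude.Thm_ModularForm_sturm_bound_Gamma0
import Fermat.Prelude.Thm_CongruenceSubgroup_one_mem_strictPeriods_Gamma0

set_option autoImplicit false

open UpperHalfPlane ModularForm
open scoped MatrixGroups Manifold

namespace Fermat.Agent.S23

/-- `Γ₀(N)` as a subgroup of `GL₂(ℝ)`. -/
abbrev G0 (N : ℕ) : Subgroup (GL (Fin 2) ℝ) :=
  Subgroup.map (Matrix.SpecialLinearGroup.mapGL ℝ) (CongruenceSubgroup.Gamma0 N)

theorem G0_le (N : ℕ) : G0 N ≤ 𝒮ℒ := by
  rintro _ ⟨γ, -, rfl⟩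
  exact ⟨γ, rfl⟩

theorem map_ringEquiv_of_mem_intSeries (σ : ℂ ≃+* ℂ) {p : PowerSeries ℂ} (hp : p ∈ intSeries) :
    p.map (σ : ℂ →+* ℂ) = p := by
  rw [mem_intSeries_iff] at hp
  ext n
  obtain ⟨m, hm⟩ := hp n
  simp [hm]

theorem levelOne_conj (σ : ℂ ≃+* ℂ) {k : ℤ} (g : ModularForm 𝒮ℒ k) :
    ∃ g' : ModularForm 𝒮ℒ k, qExpansion 1 g' = (qExpansion 1 g).map (σ : ℂ →+* ℂ) := by
  have hg : g ∈ Submodule.span ℂ {g : ModularForm 𝒮ℒ k | qExpansion 1 g ∈ intSeries} := by
    rw [levelOne_span_int]; trivial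
  induction hg using Submodule.span_induction with
  | mem x hx => exact ⟨x, (map_ringEquiv_of_mem_intSeries σ hx).symm⟩
  | zero => exact ⟨0, by simp [qExpansion_zero]⟩
  | add x y _ _ hx hy =>
    obtain ⟨x', hx'⟩ := hx
    obtain ⟨y', hy'⟩ := hy
    refine ⟨x' + y', ?_⟩
    rw [FunLike.coe_add, FunLike.coe_add, (Nice.of_levelOne x').qExp_add (Nice.of_levelOne y'),
      (Nice.of_levelOne x).qExp_add (Nice.of_levelOne y), map_add, hx', hy']
  | smul a x _ hx =>
    obtain ⟨x', hx'⟩ := hx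
    refine ⟨σ a • x', ?_⟩
    rw [FunLike.coe_smul, FunLike.coe_smul, (Nice.of_levelOne x').qExp_smul,
      (Nice.of_levelOne x).qExp_smul, hx']
    ext n
    simp

theorem levelOne_qExp_mem_span {k : ℤ} (g : ModularForm 𝒮ℒ k) :
    qExpansion 1 g ∈ Submodule.span ℂ (intSeries : Set (PowerSeries ℂ)) := by
  have hg : g ∈ Submodule.span ℂ {g : ModularForm 𝒮ℒ k | qExpansion 1 g ∈ intSeries} := by
    rw [levelOne_span_int]; trivial
  induction hg using Submodule.span_induction with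
  | mem x hx => exact Submodule.subset_span hx
  | zero => simp [qExpansion_zero]
  | add x y _ _ hx hy =>
    rw [FunLike.coe_add, (Nice.of_levelOne x).qExp_add (Nice.of_levelOne y)]
    exact Submodule.add_mem _ hx hy
  | smul a x _ hx =>
    rw [FunLike.coe_smul, (Nice.of_levelOne x).qExp_smul]
    exact Submodule.smul_mem _ a hx

theorem span_intSeries_mul_mem {y z : PowerSeries ℂ}
    (hy : y ∈ Submodule.span ℂ (intSeries : Set (PowerSeries ℂ))) (hz : z ∈ intSeries) :
    y * z ∈ Submodule.span ℂ (intSeries : Set (PowerSeries ℂ)) := by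
  induction hy using Submodule.span_induction with
  | mem x hx => exact Submodule.subset_span (intSeries.mul_mem hx hz)
  | zero => simp
  | add x y _ _ hx hy => rw [add_mul]; exact Submodule.add_mem _ hx hy
  | smul a x _ hx => rw [smul_mul_assoc]; exact Submodule.smul_mem _ a hx

/-- `∑ j < d, g j * t ^ j` as a modular form. -/
noncomputable def combo {𝒢 : Subgroup (GL (Fin 2) ℝ)} (h𝒢 : 𝒢 ≤ 𝒮ℒ) [𝒢.HasDetPlusMinusOne]
    {K w : ℤ} (t : ModularForm 𝒢 w) (d : ℕ) (g : (j : ℕ) → ModularForm 𝒮ℒ (K - j * w)) :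
    ModularForm 𝒢 K :=
  ∑ j ∈ Finset.range d, ModularForm.mcast (by ring) ((restrictLevel h𝒢 (g j)).mul (t.pow j))

theorem coe_combo {𝒢 : Subgroup (GL (Fin 2) ℝ)} (h𝒢 : 𝒢 ≤ 𝒮ℒ) [𝒢.HasDetPlusMinusOne]
    {K w : ℤ} (t : ModularForm 𝒢 w) (d : ℕ) (g : (j : ℕ) → ModularForm 𝒮ℒ (K - j * w)) :
    ⇑(combo h𝒢 t d g) = ∑ j ∈ Finset.range d, ⇑(g j) * ⇑t ^ j := by
  unfold combo
  have := map_sum (FunLike.coeAddMonoidHom (ModularForm 𝒢 K) ℍ ℂ)
    (fun j => ModularForm.mcast (by ring) ((restrictLevel h𝒢 (g j)).mul (t.pow j)))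
    (Finset.range d)
  simp only [FunLike.coeAddMonoidHom_apply] at this
  rw [this]
  refine Finset.sum_congr rfl fun j _ => ?_
  simp

/-- A modular form all of whose `SL₂(ℤ)`-translates vanish at `i∞` is a cusp form. -/
def toCusp {𝒢 : Subgroup (GL (Fin 2) ℝ)} [𝒢.IsArithmetic] {k : ℤ} (f : ModularForm 𝒢 k)
    (h : ∀ γ : SL(2, ℤ), IsZeroAtImInfty (⇑f ∣[k] γ)) : CuspForm 𝒢 k where
  toSlashInvariantForm := f.toSlashInvariantForm
  holo' := f.holo'
  zero_at_cusps' {c} hc := by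
    rw [Subgroup.IsArithmetic.isCusp_iff_isCusp_SL2Z] at hc
    rw [OnePoint.isZeroAt_iff_forall_SL2Z hc]
    exact fun γ _ => h γ

@[simp] theorem coe_toCusp {𝒢 : Subgroup (GL (Fin 2) ℝ)} [𝒢.IsArithmetic] {k : ℤ}
    (f : ModularForm 𝒢 k) (h : ∀ γ : SL(2, ℤ), IsZeroAtImInfty (⇑f ∣[k] γ)) :
    ⇑(toCusp f h) = ⇑f := rfl

theorem nice_G0 {N : ℕ} {k : ℤ} (f : ModularForm (G0 N) k) : Nice f :=
  Nice.of_modularForm (CongruenceSubgroup.one_mem_strictPeriods_Gamma0 N) f

theorem map_ringEquiv_injective (σ : ℂ ≃+* ℂ) :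
    Function.Injective (PowerSeries.map (σ : ℂ →+* ℂ)) := by
  intro p q h
  ext n
  have := congrArg (PowerSeries.coeff n) h
  simpa using this

/-- **Stability under `Aut(ℂ)`**: conjugating the q-expansion of a cusp form on `Γ₀(N)` by a
field automorphism of `ℂ` gives the q-expansion of a cusp form on `Γ₀(N)`. -/
theorem exists_conj (N : ℕ) [NeZero N] {k : ℤ} (σ : ℂ ≃+* ℂ) (f : CuspForm (G0 N) k) :
    ∃ f' : CuspForm (G0 N) k, qExpansion 1 f' = (qExpansion 1 f).map (σ : ℂ →+* ℂ) := by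
  obtain ⟨t, ht_int, ht_stab⟩ := exists_primitive N
  have ht' : ∀ h : SL(2, ℤ), (⇑t ∣[(4 : ℤ)] h = ⇑t) →
      Matrix.SpecialLinearGroup.mapGL ℝ h ∈ G0 N := fun h hh => ⟨h, ht_stab h hh, rfl⟩
  obtain ⟨d₁, m, D, hD, hden⟩ := exists_denominator (G0_le N) t ht'
  let fM : ModularForm (G0 N) k := ModularFormClass.modularForm f
  have hfM : ⇑fM = ⇑f := rfl
  obtain ⟨g, hg⟩ := hden fM
  obtain ⟨d, c, hc0, hrel, hcusp⟩ := exists_monic_relation fM
  have hc_zero := hcusp (fun γ => CuspFormClass.zero_at_infty_slash f γ)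
  -- conjugates of the level one data
  obtain ⟨D', hD'⟩ := levelOne_conj σ D
  choose g' hg' using fun j => levelOne_conj σ (g j)
  choose c' hc' using fun i => levelOne_conj σ (c i)
  let A' : ModularForm (G0 N) (k + m) := combo (G0_le N) t d₁ g'
  have hA' : ⇑A' = ∑ j ∈ Finset.range d₁, ⇑(g' j) * ⇑t ^ j := coe_combo _ _ _ _
  set S := PowerSeries.map (σ : ℂ →+* ℂ) with hS
  have nf : Nice fM := nice_G0 fM
  have nt : Nice t := nice_G0 t
  have nD : Nice D := Nice.of_levelOne D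
  have nD' : Nice D' := Nice.of_levelOne D'
  have nA' : Nice A' := nice_G0 A'
  -- (a) q-expansion of `D * f`
  have ha : qExpansion 1 D * qExpansion 1 fM =
      ∑ j ∈ Finset.range d₁, qExpansion 1 (g j) * qExpansion 1 t ^ j := by
    have h1 : ⇑D * ⇑fM = ∑ j ∈ Finset.range d₁, ⇑(g j) * ⇑t ^ j := by
      funext τ
      simpa using hg τ
    rw [← nD.qExp_mul nf, h1, Nice.qExp_sum _ fun j _ => (Nice.of_levelOne (g j)).mul (nt.pow j)]
    refine Finset.sum_congr rfl fun j _ => ?_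
    rw [(Nice.of_levelOne (g j)).qExp_mul (nt.pow j), nt.qExp_pow]
  -- (b) q-expansion of `A'`
  have hb : qExpansion 1 A' = S (qExpansion 1 D) * S (qExpansion 1 fM) := by
    rw [← map_mul, ha, map_sum, hA',
      Nice.qExp_sum _ fun j _ => (Nice.of_levelOne (g' j)).mul (nt.pow j)]
    refine Finset.sum_congr rfl fun j _ => ?_
    rw [(Nice.of_levelOne (g' j)).qExp_mul (nt.pow j), nt.qExp_pow, map_mul, map_pow, hg' j,
      hS, map_ringEquiv_of_mem_intSeries σ ht_int]
  -- (c) the monic relation on q-expansions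
  have hc : ∑ i ∈ Finset.range (d + 1), qExpansion 1 (c i) * qExpansion 1 fM ^ (d - i) = 0 := by
    have h1 : ∑ i ∈ Finset.range (d + 1), ⇑(c i) * ⇑fM ^ (d - i) = 0 := by
      funext τ
      simpa using hrel τ
    have h2 := congrArg (qExpansion 1) h1
    rw [Nice.qExp_sum _ fun i _ => (Nice.of_levelOne (c i)).mul (nf.pow _), qExpansion_zero] at h2
    rw [← h2]
    refine Finset.sum_congr rfl fun i _ => ?_
    rw [(Nice.of_levelOne (c i)).qExp_mul (nf.pow _), nf.qExp_pow]
  -- (d) the conjugated relation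
  have hd : ∀ τ : ℍ, ∑ i ∈ Finset.range (d + 1), c' i τ * D' τ ^ i * A' τ ^ (d - i) = 0 := by
    have nR : Nice (∑ i ∈ Finset.range (d + 1), ⇑(c' i) * ⇑D' ^ i * ⇑A' ^ (d - i)) :=
      Nice.sum _ fun i _ => ((Nice.of_levelOne (c' i)).mul (nD'.pow i)).mul (nA'.pow _)
    have h0 : ∑ i ∈ Finset.range (d + 1), ⇑(c' i) * ⇑D' ^ i * ⇑A' ^ (d - i) = 0 := by
      apply nR.eq_zero
      rw [Nice.qExp_sum _ fun i _ => ((Nice.of_levelOne (c' i)).mul (nD'.pow i)).mul (nA'.pow _)]
      have : ∀ i ∈ Finset.range (d + 1),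
          qExpansion 1 (⇑(c' i) * ⇑D' ^ i * ⇑A' ^ (d - i)) =
            S (qExpansion 1 D ^ d * (qExpansion 1 (c i) * qExpansion 1 fM ^ (d - i))) := by
        intro i hi
        have hi' : i ≤ d := Nat.lt_succ_iff.mp (Finset.mem_range.mp hi)
        rw [((Nice.of_levelOne (c' i)).mul (nD'.pow i)).qExp_mul (nA'.pow _),
          (Nice.of_levelOne (c' i)).qExp_mul (nD'.pow i), nD'.qExp_pow, nA'.qExp_pow, hb, hc' i,
          hD']
        simp only [map_mul, map_pow]
        have : S (qExpansion 1 D) ^ d = S (qExpansion 1 D) ^ i * S (qExpansion 1 D) ^ (d - i) := by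
          rw [← pow_add, Nat.add_sub_cancel' hi']
        rw [this, mul_pow]
        ring
      rw [Finset.sum_congr rfl this, ← map_sum, ← Finset.mul_sum, hc, mul_zero, map_zero]
    intro τ
    simpa using congrFun h0 τ
  -- (e) `c' 0 = 1`
  have he : ⇑(c' 0) = 1 := by
    apply (Nice.of_levelOne (c' 0)).ext Nice.one
    rw [hc' 0, hc0, qExpansion_one, map_one]
  -- (g) `D' ≠ 0`
  have hD'0 : D' ≠ 0 := by
    intro h
    apply hD
    have h1 : qExpansion 1 D' = 0 := by rw [h]; simpa using qExpansion_zero 1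
    rw [hD'] at h1
    have h2 : qExpansion 1 D = 0 := map_ringEquiv_injective σ (by rw [h1, map_zero])
    exact DFunLike.coe_injective (nD.eq_zero h2)
  obtain ⟨f', hf', hf'cusp⟩ := exists_quotient (G0_le N) A' D' hD'0 d c' he hd
  have hzero : ∀ i, 1 ≤ i → IsZeroAtImInfty (c' i) := by
    intro i hi
    apply (Nice.of_levelOne (c' i)).isZeroAtImInfty
    rw [hc' i, PowerSeries.coeff_map, Nice.coeff_zero_of_isZeroAtImInfty (hc_zero i hi)]
    simp
  refine ⟨toCusp f' (hf'cusp hzero), ?_⟩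
  rw [coe_toCusp]
  have nf' : Nice f' := nice_G0 f'
  have h1 : qExpansion 1 D' * qExpansion 1 f' = qExpansion 1 D' * S (qExpansion 1 fM) := by
    rw [← nD'.qExp_mul nf', hD', ← hb]
    congr 1
    funext τ
    simpa using hf' τ
  have h2 : qExpansion 1 D' ≠ 0 := fun h => hD'0 (DFunLike.coe_injective (nD'.eq_zero h))
  exact mul_left_cancel₀ h2 h1

theorem nice_cusp {N : ℕ} {k : ℤ} (f : CuspForm (G0 N) k) : Nice f :=
  nice_G0 (ModularFormClass.modularForm f)

/-- The q-expansion as a linear map on cusp forms. -/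
noncomputable def qLin (N : ℕ) (k : ℤ) : CuspForm (G0 N) k →ₗ[ℂ] PowerSeries ℂ where
  toFun f := qExpansion 1 f
  map_add' f g := by
    rw [FunLike.coe_add, (nice_cusp f).qExp_add (nice_cusp g)]
  map_smul' a f := by
    rw [FunLike.coe_smul, (nice_cusp f).qExp_smul, RingHom.id_apply]

@[simp] theorem qLin_apply (N : ℕ) (k : ℤ) (f : CuspForm (G0 N) k) :
    qLin N k f = qExpansion 1 f := rfl

theorem qLin_injective (N : ℕ) (k : ℤ) : Function.Injective (qLin N k) := by
  intro f g h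
  exact DFunLike.coe_injective ((nice_cusp f).ext (nice_cusp g) h)

theorem finiteDimensional_cuspForm (N : ℕ) [NeZero N] (k : ℤ) :
    FiniteDimensional ℂ (CuspForm (G0 N) k) := by
  set B : ℕ := (k * ↑(CongruenceSubgroup.Gamma0 N).index).toNat / 12 with hB
  let φ : CuspForm (G0 N) k →ₗ[ℂ] (Fin (B + 1) → ℂ) :=
    LinearMap.pi fun i => (PowerSeries.coeff (R := ℂ) (i : ℕ)) ∘ₗ qLin N k
  have hφ : Function.Injective φ := by
    rw [← LinearMap.ker_eq_bot, LinearMap.ker_eq_bot']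
    intro f hf
    have h0 : (ModularFormClass.modularForm f : ModularForm (G0 N) k) = 0 := by
      apply ModularForm.sturm_bound_Gamma0 N
      intro n hn
      have := congrFun hf ⟨n, Nat.lt_succ_of_le hn⟩
      simpa [φ] using this
    ext τ
    exact congrArg (fun F : ModularForm (G0 N) k => F τ) h0
  exact FiniteDimensional.of_injective φ hφ

/-- A cusp form on `Γ₀(N)` with rational q-expansion has bounded denominators. -/
theorem exists_int_multiple (N : ℕ) [NeZero N] {k : ℤ} (f : CuspForm (G0 N) k)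
    (hf : ∀ n, ∃ r : ℚ, PowerSeries.coeff n (qExpansion 1 f) = (r : ℂ)) :
    ∃ M : ℤ, M ≠ 0 ∧ (M : ℂ) • qExpansion 1 f ∈ intSeries := by
  obtain ⟨t, ht_int, ht_stab⟩ := exists_primitive N
  have ht' : ∀ h : SL(2, ℤ), (⇑t ∣[(4 : ℤ)] h = ⇑t) →
      Matrix.SpecialLinearGroup.mapGL ℝ h ∈ G0 N := fun h hh => ⟨h, ht_stab h hh, rfl⟩
  obtain ⟨d₁, m, D, hD, hden⟩ := exists_denominator (G0_le N) t ht'
  let fM : ModularForm (G0 N) k := ModularFormClass.modularForm f
  obtain ⟨d, c, hc0, hrel, -⟩ := exists_monic_relation fM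
  have nf : Nice fM := nice_G0 fM
  have nt : Nice t := nice_G0 t
  have nD : Nice D := Nice.of_levelOne D
  refine bounded_denominators (qExpansion 1 fM) hf d (fun i => qExpansion 1 (c i)) ?_
    (fun i => levelOne_qExp_mem_span (c i)) ?_ (qExpansion 1 D) ?_ ?_
  · simp only [hc0, qExpansion_one]
  · have h1 : ∑ i ∈ Finset.range (d + 1), ⇑(c i) * ⇑fM ^ (d - i) = 0 := by
      funext τ
      simpa using hrel τ
    have h2 := congrArg (qExpansion 1) h1
    rw [Nice.qExp_sum _ fun i _ => (Nice.of_levelOne (c i)).mul (nf.pow _), qExpansion_zero] at h2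
    rw [← h2]
    refine Finset.sum_congr rfl fun i _ => ?_
    rw [(Nice.of_levelOne (c i)).qExp_mul (nf.pow _), nf.qExp_pow]
  · exact fun h => hD (DFunLike.coe_injective (nD.eq_zero h))
  · intro e
    obtain ⟨g, hg⟩ := hden (fM.pow e)
    have h1 : ⇑D * ⇑fM ^ e = ∑ j ∈ Finset.range d₁, ⇑(g j) * ⇑t ^ j := by
      funext τ
      simpa using hg τ
    rw [← nf.qExp_pow, ← nD.qExp_mul (nf.pow e), h1,
      Nice.qExp_sum _ fun j _ => (Nice.of_levelOne (g j)).mul (nt.pow j)]
    refine Submodule.sum_mem _ fun j _ => ?_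
    rw [(Nice.of_levelOne (g j)).qExp_mul (nt.pow j), nt.qExp_pow]
    exact span_intSeries_mul_mem (levelOne_qExp_mem_span (g j)) (intSeries.pow_mem ht_int j)

/-- **Integral structure**: for every level `N ≥ 1` and every weight `k`, the cusp forms on
`Γ₀(N)` with integral q-expansion span the space of all cusp forms. -/
theorem hasIntegralStructure (N : ℕ) [NeZero N] (k : ℤ) : CuspForm.HasIntegralStructure N k := by
  have hfix : ∀ x : ℂ, (∀ σ : ℂ ≃+* ℂ, σ x = x) → ∃ r : ℚ, x = (r : ℂ) := by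
    intro x hx
    by_contra hcon
    push Not at hcon
    obtain ⟨σ, hσ⟩ := exists_ringEquiv_ne x (fun r h => hcon r h.symm)
    exact hσ (hx σ)
  have := finiteDimensional_cuspForm N k
  have hspan := span_rational_of_stable hfix (qLin N k) (qLin_injective N k)
    (fun σ v => exists_conj N σ v)
  unfold CuspForm.HasIntegralStructure
  rw [eq_top_iff, ← hspan, Submodule.span_le]
  intro f hf
  obtain ⟨M, hM0, hM⟩ := exists_int_multiple N f hf
  have hMC : (M : ℂ) ≠ 0 := by exact_mod_cast hM0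
  have hmem : (M : ℂ) • f ∈ (CuspForm.intLattice N k : Set (CuspForm (G0 N) k)) := by
    apply Submodule.subset_span
    intro n
    rw [mem_intSeries_iff] at hM
    obtain ⟨a, ha⟩ := hM n
    refine ⟨a, ?_⟩
    rw [← ha]
    unfold ModularFormClass.qCoeff
    rw [FunLike.coe_smul, (nice_cusp f).qExp_smul]
  have : f = (M : ℂ)⁻¹ • ((M : ℂ) • f) := by
    rw [smul_smul, inv_mul_cancel₀ hMC, one_smul]
  rw [this]
  exact Submodule.smul_mem _ _ (Submodule.subset_span hmem)

end Fermat.Agent.S23
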