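import Mathlib
import Fermat.Prelude.Def_ModularForm_HeckeOperator
import Fermat.Prelude.Thm_CongruenceSubgroup_one_mem_strictPeriods_Gamma0

set_option autoImplicit false

open UpperHalfPlane ModularForm CongruenceSubgroup Matrix
open scoped MatrixGroups ModularForm Pointwise

namespace Fermat.Agent.S23.Prim

noncomputable section

lemma mapGL_val_apply (g : SL(2, ℤ)) (i j : Fin 2) :
    ((Matrix.SpecialLinearGroup.mapGL ℝ g : GL (Fin 2) ℝ) : Matrix (Fin 2) (Fin 2) ℝ) i j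
      = ((g i j : ℤ) : ℝ) := by
  simp [Matrix.SpecialLinearGroup.mapGL_coe_matrix]

/-- For `γ ∈ Γ₀(N)`, the matrix `diag(N,1) γ diag(N,1)⁻¹` as an element of `SL(2,ℤ)`. -/
def conjDiag (N : ℕ) (γ : SL(2, ℤ)) (hγ : (N : ℤ) ∣ γ 1 0) : SL(2, ℤ) :=
  ⟨!![γ 0 0, N * γ 0 1; γ 1 0 / N, γ 1 1], by
    obtain ⟨c, hc⟩ := hγ
    have hdet := Matrix.det_fin_two γ.1
    rw [γ.2] at hdet
    rcases eq_or_ne (N : ℤ) 0 with hN | hN
    · rw [Matrix.det_fin_two_of, hN]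
      rw [hc, hN] at hdet
      simp at hdet ⊢
      linarith
    · rw [Matrix.det_fin_two_of, hc, Int.mul_ediv_cancel_left _ hN]
      rw [hc] at hdet
      linarith⟩

lemma coe_conjDiag (N : ℕ) (γ : SL(2, ℤ)) (hγ : (N : ℤ) ∣ γ 1 0) :
    (conjDiag N γ hγ : Matrix (Fin 2) (Fin 2) ℤ) = !![γ 0 0, N * γ 0 1; γ 1 0 / N, γ 1 1] := rfl

lemma heckeDiagMatrix_mul_mapGL (N : ℕ) [NeZero N] (γ : SL(2, ℤ)) (hγ : (N : ℤ) ∣ γ 1 0) :
    heckeDiagMatrix N * (Matrix.SpecialLinearGroup.mapGL ℝ γ) =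
      (Matrix.SpecialLinearGroup.mapGL ℝ (conjDiag N γ hγ)) * heckeDiagMatrix N := by
  have hN : N ≠ 0 := NeZero.ne N
  apply Units.ext
  rw [Units.val_mul, Units.val_mul, val_heckeDiagMatrix hN]
  have hN' : (N : ℤ) ≠ 0 := by exact_mod_cast hN
  ext i j
  rw [Matrix.mul_apply, Matrix.mul_apply, Fin.sum_univ_two, Fin.sum_univ_two]
  simp only [mapGL_val_apply, coe_conjDiag]
  obtain ⟨c, hc⟩ := hγ
  fin_cases i <;> fin_cases j <;>
  simp [hc, Int.mul_ediv_cancel_left _ hN'] <;> ring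

/-- Restrict a modular form to a smaller group. -/
def restrictLE {Γ Γ' : Subgroup (GL (Fin 2) ℝ)} (h : Γ' ≤ Γ) {k : ℤ} (f : ModularForm Γ k) :
    ModularForm Γ' k where
  toFun := f
  slash_action_eq' γ hγ := f.slash_action_eq' γ (h hγ)
  holo' := f.holo'
  bdd_at_cusps' hc := f.bdd_at_cusps' (hc.mono h)

@[simp] lemma coe_restrictLE {Γ Γ' : Subgroup (GL (Fin 2) ℝ)} (h : Γ' ≤ Γ) {k : ℤ}
    (f : ModularForm Γ k) : ⇑(restrictLE h f) = ⇑f := rfl

lemma Gamma0_le_conj (N : ℕ) [NeZero N] :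
    (Subgroup.map (Matrix.SpecialLinearGroup.mapGL ℝ) (Gamma0 N)) ≤
      ConjAct.toConjAct (heckeDiagMatrix N)⁻¹ • 𝒮ℒ := by
  rintro _ ⟨γ, hγ, rfl⟩
  rw [map_inv, Subgroup.mem_inv_pointwise_smul_iff, ConjAct.toConjAct_smul]
  have hγ' : (N : ℤ) ∣ γ 1 0 := by
    have := (Gamma0_mem).mp hγ
    exact (ZMod.intCast_zmod_eq_zero_iff_dvd _ _).mp this
  rw [heckeDiagMatrix_mul_mapGL N γ hγ', mul_inv_cancel_right]
  exact ⟨_, rfl⟩

/-- `t(z) = N³ E₄(N z)` as a modular form of weight `4` on `Γ₀(N)`. -/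
def tForm (N : ℕ) [NeZero N] : ModularForm (Gamma0 N) 4 :=
  restrictLE (Gamma0_le_conj N) (ModularForm.translate E₄ (heckeDiagMatrix N))

lemma coe_tForm (N : ℕ) [NeZero N] : ⇑(tForm N) = (⇑E₄) ∣[(4 : ℤ)] heckeDiagMatrix N := rfl

lemma tForm_apply (N : ℕ) [NeZero N] (τ : ℍ) :
    tForm N τ = (N : ℂ) ^ 3 * E₄ (heckeDiagMatrix N • τ) := by
  rw [coe_tForm, slash_heckeDiagMatrix_apply _ (NeZero.ne N)]
  norm_num

open Filter Topology

lemma tendsto_atImInfty_coeff_zero {Γ : Subgroup (GL (Fin 2) ℝ)} {k : ℤ} (f : ModularForm Γ k)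
    (hΓ : (1 : ℝ) ∈ Γ.strictPeriods) :
    Tendsto f atImInfty (𝓝 ((qExpansion 1 f).coeff 0)) := by
  have han := ModularFormClass.analyticAt_cuspFunction_zero f one_pos hΓ
  have hper := SlashInvariantFormClass.periodic_comp_ofComplex f hΓ
  have : (cuspFunction 1 f ∘ fun τ : ℍ ↦ Function.Periodic.qParam 1 τ : ℍ → ℂ) = f := by
    funext τ
    simpa using eq_cuspFunction τ one_ne_zero hper
  have h0 : (qExpansion 1 f).coeff 0 = cuspFunction 1 f 0 := by simp [qExpansion_coeff]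
  rw [h0]
  simpa [this] using han.continuousAt.tendsto.comp (qParam_tendsto_atImInfty one_pos)

lemma tendsto_E₄ : Tendsto E₄ atImInfty (𝓝 1) := by
  have := tendsto_atImInfty_coeff_zero E₄ one_mem_strictPeriods_SL
  rwa [EisensteinSeries.E_qExpansion_coeff_zero _ ⟨2, rfl⟩] at this

lemma slash_upperTriangularGL_apply (k : ℤ) (a b d : ℝ) (had : 0 < a * d) (f : ℍ → ℂ) (τ : ℍ) :
    (f ∣[k] upperTriangularGL a b d had.ne') τ =
      f (upperTriangularGL a b d had.ne' • τ) * ((a * d : ℝ) : ℂ) ^ (k - 1) * (d : ℂ) ^ (-k) := by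
  have hdet : ((upperTriangularGL a b d had.ne').det : ℝ) = a * d := by
    rw [Matrix.GeneralLinearGroup.val_det_apply, val_upperTriangularGL, Matrix.det_fin_two_of]
    ring
  have hσ : UpperHalfPlane.σ (upperTriangularGL a b d had.ne') = .refl ℝ ℂ := by
    rw [UpperHalfPlane.σ, if_pos (by rw [hdet]; exact had)]
  have hden : UpperHalfPlane.denom (upperTriangularGL a b d had.ne') τ = d := by
    simp [UpperHalfPlane.denom]
  rw [ModularForm.slash_apply, hσ, hdet, hden, abs_of_pos had]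
  simp

lemma tendsto_slash_upperTriangularGL (k : ℤ) (a b d : ℝ) (had : 0 < a * d) (f : ℍ → ℂ) (c : ℂ)
    (hf : Tendsto f atImInfty (𝓝 c)) :
    Tendsto (f ∣[k] upperTriangularGL a b d had.ne') atImInfty
      (𝓝 (c * ((a * d : ℝ) : ℂ) ^ (k - 1) * (d : ℂ) ^ (-k))) := by
  have h1 : Tendsto (fun τ : ℍ => upperTriangularGL a b d had.ne' • τ) atImInfty atImInfty :=
    tendsto_smul_atImInfty (by simp)
  have h2 := ((hf.comp h1).mul_const (((a * d : ℝ) : ℂ) ^ (k - 1))).mul_const ((d : ℂ) ^ (-k))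
  refine h2.congr fun τ => ?_
  rw [slash_upperTriangularGL_apply k a b d had]
  rfl

/-- Hermite normal form: `diag(N,1) γ = σ [[g,e],[0,d]]` with `σ ∈ SL(2,ℤ)`, `g d = N`, `g ∣ γ₁₀`. -/
lemma exists_hnf (N : ℕ) [NeZero N] (γ : SL(2, ℤ)) :
    ∃ (σ : SL(2, ℤ)) (g e d : ℤ) (h : 0 < (g : ℝ) * (d : ℝ)), g * d = N ∧ g ∣ γ 1 0 ∧
      heckeDiagMatrix N * (Matrix.SpecialLinearGroup.mapGL ℝ γ) =
        (Matrix.SpecialLinearGroup.mapGL ℝ σ) * upperTriangularGL g e d h.ne' := by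
  have hN : N ≠ 0 := NeZero.ne N
  have hN' : (N : ℤ) ≠ 0 := by exact_mod_cast hN
  have hdet : γ 0 0 * γ 1 1 - γ 0 1 * γ 1 0 = 1 := by
    have := Matrix.det_fin_two γ.1
    rw [γ.2] at this
    exact this.symm
  set A : ℤ := N * γ 0 0 with hA
  set C : ℤ := γ 1 0 with hC
  have hAC : ¬ (A = 0 ∧ C = 0) := by
    rintro ⟨h1, h2⟩
    have h3 : γ 0 0 = 0 := by
      rcases mul_eq_zero.mp h1 with h | h
      · exact absurd h hN'
      · exact h
    rw [h3, h2] at hdet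
    simp at hdet
  set g : ℤ := ((Int.gcd A C : ℕ) : ℤ) with hg
  have hg0 : g ≠ 0 := by
    intro h
    apply hAC
    have : Int.gcd A C = 0 := by rw [hg] at h; exact_mod_cast h
    exact Int.gcd_eq_zero_iff.mp this
  obtain ⟨p, hp⟩ : g ∣ A := Int.gcd_dvd_left ..
  obtain ⟨q, hq⟩ : g ∣ C := Int.gcd_dvd_right ..
  have hcop : IsCoprime p q := by
    obtain ⟨u, v, huv⟩ : ∃ u v : ℤ, g = A * u + C * v := ⟨_, _, Int.gcd_eq_gcd_ab A C⟩
    refine ⟨u, v, ?_⟩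
    have : g * (u * p + v * q) = g * 1 := by
      rw [mul_one]
      conv_rhs => rw [huv, hp, hq]
      ring
    exact mul_left_cancel₀ hg0 this
  obtain ⟨σ, hσ0, hσ1⟩ := hcop.exists_SL2_col 0
  have hdσ : σ 0 0 * σ 1 1 - σ 0 1 * σ 1 0 = 1 := by
    have := Matrix.det_fin_two σ.1
    rw [σ.2] at this
    exact this.symm
  rw [hσ0, hσ1] at hdσ
  set e : ℤ := σ 1 1 * (N * γ 0 1) - σ 0 1 * γ 1 1 with he
  set d : ℤ := - q * (N * γ 0 1) + p * γ 1 1 with hd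
  have hgd : g * d = N := by
    have : g * d = - (g * q) * (N * γ 0 1) + (g * p) * γ 1 1 := by rw [hd]; ring
    rw [this, ← hp, ← hq, hA, hC]
    linear_combination (N : ℤ) * hdet
  have hpos : 0 < (g : ℝ) * (d : ℝ) := by
    have : (g : ℝ) * (d : ℝ) = N := by exact_mod_cast hgd
    rw [this]
    exact_mod_cast Nat.pos_of_ne_zero hN
  refine ⟨σ, g, e, d, hpos, hgd, ⟨q, hq⟩, ?_⟩
  apply Units.ext
  rw [Units.val_mul, Units.val_mul, val_heckeDiagMatrix hN, val_upperTriangularGL]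
  ext i j
  rw [Matrix.mul_apply, Matrix.mul_apply, Fin.sum_univ_two, Fin.sum_univ_two]
  simp only [mapGL_val_apply]
  fin_cases i <;> fin_cases j
  · simp only [Fin.zero_eta, Fin.isValue, of_apply, cons_val', cons_val_zero, cons_val_fin_one,
      cons_val_one, zero_mul, add_zero, mul_zero]
    rw [hσ0]
    have : (N : ℤ) * γ 0 0 = p * g := by rw [← hA, hp]; ring
    exact_mod_cast this
  · simp only [Fin.zero_eta, Fin.isValue, Fin.mk_one, of_apply, cons_val', cons_val_zero,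
      cons_val_fin_one, cons_val_one, zero_mul, add_zero]
    rw [hσ0]
    have : (N : ℤ) * γ 0 1 = p * e + σ 0 1 * d := by
      rw [he, hd]
      linear_combination (-(N : ℤ) * γ 0 1) * hdσ
    exact_mod_cast this
  · simp only [Fin.mk_one, Fin.isValue, Fin.zero_eta, of_apply, cons_val', cons_val_zero,
      cons_val_fin_one, cons_val_one, zero_mul, zero_add, one_mul, mul_zero, add_zero]
    rw [hσ1]
    have : γ 1 0 = q * g := by rw [← hC, hq]; ring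
    exact_mod_cast this
  · simp only [Fin.mk_one, Fin.isValue, of_apply, cons_val', cons_val_one, cons_val_fin_one,
      cons_val_zero, zero_mul, zero_add, one_mul]
    rw [hσ1]
    have : γ 1 1 = q * e + σ 1 1 * d := by
      rw [he, hd]
      linear_combination (- γ 1 1) * hdσ
    exact_mod_cast this

lemma tendsto_tForm (N : ℕ) [NeZero N] : Tendsto (tForm N) atImInfty (𝓝 ((N : ℂ) ^ 3)) := by
  have h1 : Tendsto (fun τ : ℍ => heckeDiagMatrix N • τ) atImInfty atImInfty :=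
    tendsto_smul_atImInfty (by simp [val_heckeDiagMatrix (NeZero.ne N)])
  have h2 := (tendsto_E₄.comp h1).const_mul ((N : ℂ) ^ 3)
  rw [mul_one] at h2
  refine h2.congr fun τ => ?_
  rw [tForm_apply]
  rfl

/-- **L3**: the conjugates of `t` under `SL(2,ℤ) ∖ Γ₀(N)` are different from `t`. -/
theorem tForm_slash_ne (N : ℕ) [NeZero N] (γ : SL(2, ℤ)) (hγ : γ ∉ Gamma0 N) :
    (⇑(tForm N)) ∣[(4 : ℤ)] γ ≠ ⇑(tForm N) := by
  intro heq
  have hN : (N : ℂ) ≠ 0 := by exact_mod_cast NeZero.ne N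
  obtain ⟨σ, g, e, d, hpos, hgd, hgc, hmat⟩ := exists_hnf N γ
  have h1 : (⇑(tForm N)) ∣[(4 : ℤ)] γ = (⇑E₄) ∣[(4 : ℤ)] upperTriangularGL g e d hpos.ne' := by
    have h0 : (⇑(tForm N)) ∣[(4 : ℤ)] γ =
        (⇑(tForm N)) ∣[(4 : ℤ)] (Matrix.SpecialLinearGroup.mapGL ℝ γ) := rfl
    rw [h0, coe_tForm, ← SlashAction.slash_mul, hmat, SlashAction.slash_mul]
    congr 1
    exact SlashInvariantFormClass.slash_action_eq E₄ _ ⟨σ, rfl⟩
  have lim1 := tendsto_slash_upperTriangularGL 4 g e d hpos E₄ 1 tendsto_E₄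
  rw [← h1, heq] at lim1
  have huniq := tendsto_nhds_unique lim1 (tendsto_tForm N)
  have hgd' : ((g : ℝ) * (d : ℝ) : ℝ) = N := by exact_mod_cast hgd
  rw [hgd'] at huniq
  have hd0 : (d : ℂ) ≠ 0 := by
    intro h
    have : d = 0 := by exact_mod_cast h
    rw [this] at hpos
    simp at hpos
  have h4 : (d : ℂ) ^ 4 = 1 := by
    have h5 : ((N : ℝ) : ℂ) ^ ((4 : ℤ) - 1) = (N : ℂ) ^ 3 := by norm_num
    rw [h5, one_mul, _root_.zpow_neg] at huniq
    have h6 : ((d : ℝ) : ℂ) ^ (4 : ℤ) = (d : ℂ) ^ 4 := by norm_cast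
    rw [h6] at huniq
    have h7 : ((d : ℂ) ^ 4)⁻¹ = 1 := by
      have := mul_left_cancel₀ (pow_ne_zero 3 hN) (huniq.trans (mul_one _).symm)
      exact this
    rw [inv_eq_one] at h7
    exact h7
  have h4' : d ^ 4 = 1 := by exact_mod_cast h4
  have hd1 : IsUnit d := by
    apply IsUnit.of_pow_eq_one h4' (by norm_num)
  apply hγ
  rw [Gamma0_mem, ZMod.intCast_zmod_eq_zero_iff_dvd]
  have hNg : (N : ℤ) ∣ g := by
    rw [← hgd]
    exact (hd1.mul_right_dvd).mpr dvd_rfl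
  exact hNg.trans hgc

lemma qParam_heckeDiagMatrix_smul (N : ℕ) [NeZero N] (τ : ℍ) :
    Function.Periodic.qParam 1 ((heckeDiagMatrix N • τ : ℍ) : ℂ) =
      Function.Periodic.qParam 1 (τ : ℂ) ^ N := by
  rw [coe_heckeDiagMatrix_smul (NeZero.ne N), Function.Periodic.qParam, Function.Periodic.qParam,
    ← Complex.exp_nat_mul]
  congr 1
  ring

/-- the `q`-expansion of `t = N³ E₄(N z)`. -/
theorem tForm_qExpansion_coeff (N : ℕ) [NeZero N] (n : ℕ) :
    (qExpansion 1 (tForm N)).coeff n =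
      if N ∣ n then (N : ℂ) ^ 3 * (qExpansion 1 E₄).coeff (n / N) else 0 := by
  have hN : 0 < N := Nat.pos_of_ne_zero (NeZero.ne N)
  symm
  refine ModularFormClass.qExpansion_coeff_unique (f := tForm N)
    (c := fun n => if N ∣ n then (N : ℂ) ^ 3 * (qExpansion 1 E₄).coeff (n / N) else 0) one_pos
    (CongruenceSubgroup.one_mem_strictPeriods_Gamma0 N) (fun τ => ?_) n
  have h1 := ModularForm.hasSum_qExpansion (f := E₄) one_pos one_mem_strictPeriods_SL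
    (heckeDiagMatrix N • τ)
  have h2 := h1.mul_left ((N : ℂ) ^ 3)
  rw [← tForm_apply] at h2
  have hinj : Function.Injective (fun m : ℕ => N * m) := fun a b h =>
    Nat.eq_of_mul_eq_mul_left hN h
  rw [← hinj.hasSum_iff]
  · have hfun : ((fun m => (if N ∣ m then (N : ℂ) ^ 3 * (qExpansion 1 E₄).coeff (m / N) else 0) •
        Function.Periodic.qParam 1 (τ : ℂ) ^ m) ∘ fun m => N * m) = fun i =>
        (N : ℂ) ^ 3 * ((PowerSeries.coeff i) (qExpansion 1 ⇑E₄) *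
          Function.Periodic.qParam 1 ↑(heckeDiagMatrix N • τ) ^ i) := by
      funext m
      simp only [Function.comp_apply, dvd_mul_right, if_true, Nat.mul_div_cancel_left _ hN,
        smul_eq_mul]
      rw [qParam_heckeDiagMatrix_smul, ← pow_mul, mul_assoc]
    rw [hfun]
    exact h2
  · intro m hm
    have : ¬ N ∣ m := fun ⟨k, hk⟩ => hm ⟨k, hk.symm⟩
    simp [this]

theorem E₄_qExpansion_int (n : ℕ) : ∃ m : ℤ, (qExpansion 1 E₄).coeff n = (m : ℂ) := by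
  rw [EisensteinSeries.E_qExpansion_coeff _ ⟨2, rfl⟩]
  split_ifs with h
  · exact ⟨1, by simp⟩
  · refine ⟨240 * (ArithmeticFunction.sigma 3 n : ℤ), ?_⟩
    norm_num [show bernoulli 4 = -1 / 30 by decide +kernel]

theorem E₆_qExpansion_int (n : ℕ) : ∃ m : ℤ, (qExpansion 1 E₆).coeff n = (m : ℂ) := by
  rw [EisensteinSeries.E_qExpansion_coeff _ ⟨3, rfl⟩]
  split_ifs with h
  · exact ⟨1, by simp⟩
  · refine ⟨-504 * (ArithmeticFunction.sigma 5 n : ℤ), ?_⟩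
    norm_num [show bernoulli 6 = 1 / 42 by decide +kernel]

/-- **L2**: `t` has integral `q`-expansion. -/
theorem tForm_qExpansion_int (N : ℕ) [NeZero N] (n : ℕ) :
    ∃ m : ℤ, (qExpansion 1 (tForm N)).coeff n = (m : ℂ) := by
  rw [tForm_qExpansion_coeff]
  split_ifs with h
  · obtain ⟨m, hm⟩ := E₄_qExpansion_int (n / N)
    exact ⟨(N : ℤ) ^ 3 * m, by rw [hm]; push_cast; ring⟩
  · exact ⟨0, by simp⟩

/-- the level `Γ₀(N)` as a subgroup of `GL(2,ℝ)`. -/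
abbrev Γ0 (N : ℕ) : Subgroup (GL (Fin 2) ℝ) :=
  Subgroup.map (Matrix.SpecialLinearGroup.mapGL ℝ) (Gamma0 N)

open SlashInvariantForm in
theorem quotientFunc_tForm_ne (N : ℕ) [NeZero N] (q : 𝒮ℒ ⧸ ((Γ0 N).subgroupOf 𝒮ℒ))
    (hq : q ≠ ((1 : 𝒮ℒ) : 𝒮ℒ ⧸ ((Γ0 N).subgroupOf 𝒮ℒ))) :
    quotientFunc (ℋ := 𝒮ℒ) (tForm N) q ≠ ⇑(tForm N) := by
  induction q using QuotientGroup.induction_on with
  | H h =>
    obtain ⟨hv, γ, rfl⟩ := h
    have hγ : γ⁻¹ ∉ Gamma0 N := by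
      intro hmem
      apply hq
      rw [eq_comm, QuotientGroup.eq, Subgroup.mem_subgroupOf]
      simp only [inv_one, one_mul]
      exact ⟨γ, by simpa using hmem, rfl⟩
    have := tForm_slash_ne N γ⁻¹ hγ
    intro heq
    apply this
    refine Eq.trans ?_ heq
    change _ = (⇑(tForm N)) ∣[(4 : ℤ)] (Matrix.SpecialLinearGroup.mapGL ℝ γ)⁻¹
    rw [← map_inv]
    rfl

open SlashInvariantForm in
/-- the conjugates of `t` are pairwise distinct. -/
theorem quotientFunc_tForm_injective (N : ℕ) [NeZero N] :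
    Function.Injective (quotientFunc (ℋ := 𝒮ℒ) (tForm N)) := by
  intro q q' heq
  induction q using QuotientGroup.induction_on with
  | H h =>
    have h1 : quotientFunc (ℋ := 𝒮ℒ) (tForm N) (h : 𝒮ℒ ⧸ ((Γ0 N).subgroupOf 𝒮ℒ)) ∣[(4 : ℤ)] h.val
        = quotientFunc (ℋ := 𝒮ℒ) (tForm N) q' ∣[(4 : ℤ)] h.val := by rw [heq]
    rw [quotientFunc_smul (tForm N) h.2, quotientFunc_smul (tForm N) h.2] at h1
    have h2 : (⟨h.val, h.2⟩ : 𝒮ℒ)⁻¹ • ((h : 𝒮ℒ) : 𝒮ℒ ⧸ ((Γ0 N).subgroupOf 𝒮ℒ)) =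
        ((1 : 𝒮ℒ) : 𝒮ℒ ⧸ ((Γ0 N).subgroupOf 𝒮ℒ)) := by
      rw [MulAction.Quotient.smul_coe]
      simp
    rw [h2] at h1
    have h3 : quotientFunc (ℋ := 𝒮ℒ) (tForm N) ((1 : 𝒮ℒ) : 𝒮ℒ ⧸ ((Γ0 N).subgroupOf 𝒮ℒ)) =
        ⇑(tForm N) := by
      change (⇑(tForm N)) ∣[(4 : ℤ)] ((1 : 𝒮ℒ) : GL (Fin 2) ℝ)⁻¹ = _
      simp
    rw [h3] at h1
    by_contra hne
    refine quotientFunc_tForm_ne N _ ?_ h1.symm
    intro h4
    apply hne
    have h5 := congrArg (fun x => (⟨h.val, h.2⟩ : 𝒮ℒ) • x) h4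
    simp only [smul_inv_smul] at h5
    rw [h5, MulAction.Quotient.smul_coe]
    simp

end

end Fermat.Agent.S23.Prim
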