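/-
Consequence of the integral structure: the Hecke algebra is a finite `ℤ`-module (all weights).
-/
import Fermat.Agent.S23.Main
import Fermat.Prelude.Def_CuspForm_HeckeAlgebra
import Fermat.Prelude.Thm_CuspForm_intLattice_fg
import Fermat.Prelude.Thm_CuspForm_mem_intLattice_of_mem_heckeAlgebra

set_option autoImplicit false

open UpperHalfPlane ModularForm
open scoped MatrixGroups Manifold

namespace Fermat.Agent.S23

theorem cuspForm_eq_zero_of_nonpos (N : ℕ) [NeZero N] {k : ℤ} (hk : k ≤ 0)
    (f : CuspForm (G0 N) k) : f = 0 := by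
  have h0 : (ModularFormClass.modularForm f : ModularForm (G0 N) k) = 0 := by
    apply ModularForm.sturm_bound_Gamma0 N
    intro n hn
    have hB : (k * ↑(CongruenceSubgroup.Gamma0 N).index).toNat = 0 := by
      apply Int.toNat_of_nonpos
      exact mul_nonpos_of_nonpos_of_nonneg hk (by positivity)
    rw [hB] at hn
    obtain rfl : n = 0 := by omega
    exact CuspFormClass.qExpansion_coeff_zero f one_pos
      (CongruenceSubgroup.one_mem_strictPeriods_Gamma0 N)
  ext τ
  exact congrArg (fun F : ModularForm (G0 N) k => F τ) h0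

theorem moduleFinite_heckeAlgebra (N : ℕ) [NeZero N] (k : ℤ) (S : Set ℕ) :
    Module.Finite ℤ (CuspForm.heckeAlgebra N k S) := by
  rcases le_or_gt k 0 with hk | hk
  · have hsub : Subsingleton (CuspForm (G0 N) k) :=
      ⟨fun a b => by rw [cuspForm_eq_zero_of_nonpos N hk a, cuspForm_eq_zero_of_nonpos N hk b]⟩
    have : Subsingleton (CuspForm.heckeAlgebra N k S) :=
      ⟨fun a b => Subtype.ext (LinearMap.ext fun x => Subsingleton.elim _ _)⟩
    infer_instance
  · have hk1 : 1 ≤ k := hk
    set L := CuspForm.intLattice N k with hL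
    have hfin : Module.Finite ℤ L := Module.Finite.iff_fg.mpr (CuspForm.intLattice_fg N k)
    -- restriction to the lattice
    let ρ : CuspForm.heckeAlgebra N k S →ₗ[ℤ] (L →ₗ[ℤ] L) :=
      { toFun := fun T =>
          ((T : Module.End ℂ (CuspForm (G0 N) k)).restrictScalars ℤ).restrict
            (fun f hf => CuspForm.mem_intLattice_of_mem_heckeAlgebra hk1 T.2 hf)
        map_add' := fun T T' => by ext f; rfl
        map_smul' := fun a T => by ext f; rfl }
    have hρ : Function.Injective ρ := by
      rw [← LinearMap.ker_eq_bot, LinearMap.ker_eq_bot']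
      intro T hT
      apply Subtype.ext
      have hspan := hasIntegralStructure N k
      unfold CuspForm.HasIntegralStructure at hspan
      apply LinearMap.ext_on hspan
      intro f hf
      have := congrArg (fun φ : L →ₗ[ℤ] L => ((φ ⟨f, hf⟩ : L) : CuspForm (G0 N) k)) hT
      exact this
    have htf : Module.IsTorsionFree ℤ (CuspForm (G0 N) k) :=
      Module.IsTorsionFree.trans_faithfulSMul ℤ ℂ _
    have htfL : Module.IsTorsionFree ℤ L := inferInstance
    have hfree : Module.Free ℤ L := Module.free_of_finite_type_torsion_free'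
    have : IsNoetherian ℤ (L →ₗ[ℤ] L) := by
      have : Module.Finite ℤ (L →ₗ[ℤ] L) := Module.Finite.linearMap ℤ ℤ L L
      infer_instance
    exact Module.Finite.of_injective ρ hρ

end Fermat.Agent.S23
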